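import Fermat.Agent.VinogradovMainConjecture.Bootstrap
import Mathlib.Algebra.BigOperators.Fin
import Mathlib.Algebra.Field.GeomSum
import Mathlib.Data.Nat.Log
import Mathlib.Data.Nat.Prime.Infinite

/-!
# The main conjecture in Vinogradov's mean value theorem

Decoupling on `(ℤ / p ^ (k N)) ^ k`, with one character for each residue class modulo `p ^ N`,
counts the solutions of Vinogradov's system at the critical exponent; the other exponents follow
by Hölder's inequality and by the trivial bound.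
-/

set_option autoImplicit false

noncomputable section

namespace FA.VMC

open Finset

variable {k : ℕ}

/-- The power sums of a tuple. -/
def powerSums (k : ℕ) {s : ℕ} (x : Fin s → ℕ) : Fin k → ℤ :=
  fun j => ∑ i, (x i : ℤ) ^ (j.1 + 1)

/-- The solutions of Vinogradov's system among the numbers below `X`. -/
def solutions (k s X : ℕ) : Finset ((Fin s → ℕ) × (Fin s → ℕ)) :=
  ((Fintype.piFinset fun _ : Fin s => range X) ×ˢ
    (Fintype.piFinset fun _ : Fin s => range X)).filter fun z => powerSums k z.1 = powerSums k z.2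

/-- The weighted number of solutions. -/
def energy (k s X : ℕ) (a : ℕ → ℂ) : ℂ :=
  ∑ z ∈ solutions k s X, (∏ i, a (z.1 i)) * starRingEnd ℂ (∏ i, a (z.2 i))

theorem ec_pow (q : ℕ) (d : ℤ) (n : ℕ) : ec q d ^ n = ec q (d * n) := by
  induction n with
  | zero => simp [ec_zero]
  | succ n ih => rw [pow_succ, ih, ← ec_add]; push_cast; ring_nf

theorem prod_ec {ι : Type*} (q : ℕ) (s : Finset ι) (d : ι → ℤ) :
    ∏ i ∈ s, ec q (d i) = ec q (∑ i ∈ s, d i) := by
  induction s using Finset.cons_induction with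
  | empty => simp [ec_zero]
  | cons i s hi ih => rw [prod_cons, sum_cons, ih, ec_add]

theorem sum_zmod_ec {q : ℕ} [NeZero q] (d : ℤ) :
    ∑ v : ZMod q, ec q (d * (v.val : ℤ)) = if (q : ℤ) ∣ d then (q : ℂ) else 0 := by
  have h : ∑ v : ZMod q, ec q (d * (v.val : ℤ)) = ∑ n ∈ range q, ec q d ^ n := by
    refine sum_bij' (fun v _ => v.val) (fun n _ => (n : ZMod q))
      (fun v _ => mem_range.2 (ZMod.val_lt v)) (fun _ _ => mem_univ _)
      (fun v _ => ZMod.natCast_zmod_val v) (fun n hn => ZMod.val_natCast_of_lt (mem_range.1 hn))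
      fun v _ => by rw [ec_pow]
  rw [h]
  split
  · rename_i hd
    simp [(ec_eq_one_iff (NeZero.ne q) d).2 hd]
  · rename_i hd
    rw [geom_sum_eq fun e => hd ((ec_eq_one_iff (NeZero.ne q) d).1 e), ec_pow,
      (ec_eq_one_iff (NeZero.ne q) _).2 (dvd_mul_left _ _), sub_self, zero_div]

/-- The exponential sum over the moment curve modulo `q`. -/
def expSum (q X : ℕ) (a : ℕ → ℂ) (z : Fin k → ZMod q) : ℂ :=
  ∑ c ∈ range X, a c * ec q (∑ j, curve (moment k) c j * ((z j).val : ℤ))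

theorem expSum_pow {q X s : ℕ} (a : ℕ → ℂ) (z : Fin k → ZMod q) :
    expSum q X a z ^ s = ∑ x ∈ Fintype.piFinset fun _ : Fin s => range X,
      (∏ i, a (x i)) * ec q (∑ j, powerSums k x j * ((z j).val : ℤ)) := by
  rw [expSum, sum_pow']
  refine sum_congr rfl fun x _ => ?_
  rw [prod_mul_distrib, prod_ec, sum_comm]
  simp only [curve_moment, powerSums, sum_mul]

theorem abs_powerSums_lt {s X : ℕ} {q : ℕ} (hq : s * X ^ k < q) (hX : 1 ≤ X) {x y : Fin s → ℕ}
    (hx : x ∈ Fintype.piFinset fun _ : Fin s => range X)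
    (hy : y ∈ Fintype.piFinset fun _ : Fin s => range X) (j : Fin k) :
    |powerSums k x j - powerSums k y j| < q := by
  have hb : ∀ w ∈ Fintype.piFinset (fun _ : Fin s => range X),
      0 ≤ powerSums k w j ∧ powerSums k w j ≤ (s * X ^ k : ℕ) := fun w hw => by
    refine ⟨sum_nonneg fun i _ => by positivity, ?_⟩
    refine (sum_le_card_nsmul _ _ ((X ^ k : ℕ) : ℤ) fun i _ => ?_).trans_eq (by simp)
    rw [← Nat.cast_pow, Nat.cast_le]
    have h : x i ≤ X ∧ w i < X :=
      ⟨(mem_range.1 (Fintype.mem_piFinset.1 hx i)).le, mem_range.1 (Fintype.mem_piFinset.1 hw i)⟩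
    exact (Nat.pow_le_pow_left h.2.le _).trans (Nat.pow_le_pow_right hX (by omega))
  have h1 := hb x hx
  have h2 := hb y hy
  have h3 : ((s * X ^ k : ℕ) : ℤ) < q := by exact_mod_cast hq
  rw [abs_lt]
  omega

/-- The moment is the number of solutions, when the modulus is large. -/
theorem sum_norm_expSum {q X s : ℕ} [NeZero q] (hq : s * X ^ k < q) (hX : 1 ≤ X) (a : ℕ → ℂ) :
    ((∑ z : Fin k → ZMod q, ‖expSum q X a z‖ ^ (2 * s) : ℝ) : ℂ) =
      (q : ℂ) ^ k * energy k s X a := by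
  push_cast
  simp only [pow_mul, ← Complex.mul_conj', mul_pow, ← map_pow, expSum_pow, map_sum, map_mul,
    conj_ec, sum_mul_sum]
  rw [sum_comm, energy, solutions, sum_filter, sum_product, mul_sum]
  refine sum_congr rfl fun x hx => ?_
  rw [sum_comm, mul_sum]
  refine sum_congr rfl fun y hy => ?_
  have e : ∀ z : Fin k → ZMod q,
      (∏ i, a (x i)) * ec q (∑ j, powerSums k x j * ((z j).val : ℤ)) *
        ((∏ i, starRingEnd ℂ (a (y i))) * ec q (-∑ j, powerSums k y j * ((z j).val : ℤ))) =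
      (∏ i, a (x i)) * (∏ i, starRingEnd ℂ (a (y i))) *
        ∏ j, ec q ((powerSums k x j - powerSums k y j) * ((z j).val : ℤ)) := fun z => by
    rw [prod_ec, mul_mul_mul_comm, ← ec_add, ← sub_eq_add_neg, ← sum_sub_distrib]
    simp only [sub_mul]
  simp only [map_prod, e, ← mul_sum]
  rw [← Fintype.prod_sum
    (fun (j : Fin k) (v : ZMod q) => ec q ((powerSums k x j - powerSums k y j) * (v.val : ℤ)))]
  simp only [sum_zmod_ec]
  by_cases h : powerSums k x = powerSums k y
  · rw [if_pos h]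
    simp only [h, sub_self, dvd_zero, if_true, prod_const, card_univ, Fintype.card_fin]
    ring
  · rw [if_neg h, mul_zero]
    obtain ⟨j, hj⟩ : ∃ j, powerSums k x j ≠ powerSums k y j := by
      by_contra hcon
      push Not at hcon
      exact h (funext hcon)
    rw [prod_eq_zero (mem_univ j), mul_zero]
    exact if_neg fun hd => hj (sub_eq_zero.1
      (Int.eq_zero_of_abs_lt_dvd hd (abs_powerSums_lt hq hX hx hy j)))

theorem moment_le_energy {q X s : ℕ} [NeZero q] (hq : s * X ^ k < q) (hX : 1 ≤ X) (a : ℕ → ℂ) :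
    ∑ z : Fin k → ZMod q, ‖expSum q X a z‖ ^ (2 * s) = (q : ℝ) ^ k * ‖energy k s X a‖ := by
  have h := congrArg (fun z => ‖z‖) (sum_norm_expSum hq hX a)
  simp only [norm_mul, norm_pow, Complex.norm_natCast, Complex.norm_real, Real.norm_eq_abs] at h
  rwa [abs_of_nonneg (sum_nonneg fun z _ => by positivity)] at h

/-- Decoupling bounds the critical moment. -/
theorem expSum_bound {p N X : ℕ} [Fact p.Prime] {K : ℝ} (hk : 1 ≤ k) (hlin : Lin p k N K)
    (hX : X ≤ p ^ N) (a : ℕ → ℂ) :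
    ∑ z : Fin k → ZMod (p ^ (k * N)), ‖expSum (p ^ (k * N)) X a z‖ ^ (2 * tri k) ≤
      K * ((((p ^ (k * N)) ^ k : ℕ) : ℝ) * (∑ c ∈ range X, ‖a c‖ ^ 2) ^ tri k) := by
  have hR := tri_pos hk
  have hq : p ^ (k * N) ≠ 0 := pow_ne_zero _ (Fact.out : p.Prime).ne_zero
  have : NeZero (p ^ (k * N)) := ⟨hq⟩
  obtain ⟨q, hqdef⟩ : ∃ q, q = p ^ (k * N) := ⟨_, rfl⟩
  obtain ⟨G, hG⟩ : ∃ G : ℕ → (Fin k → ZMod (p ^ (k * N))) → ℂ, G = fun c z =>
      (if c < X then a c else 0) *
        ec (p ^ (k * N)) (∑ j, curve (moment k) c j * ((z j).val : ℤ)) := ⟨_, rfl⟩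
  let ι : (Fin k → ℤ) →+ (Fin k → ZMod (p ^ (k * N))) :=
    AddMonoidHom.mk' (fun y j => (y j : ZMod (p ^ (k * N))))
      fun y y' => funext fun j => by simp
  let S : DecSystem p k N (Fin k → ZMod (p ^ (k * N))) :=
    { ι := ι
      lam := fun _ => 1
      norm_lam := fun _ => norm_one
      w := fun _ => 1
      w_nonneg := fun _ => zero_le_one
      w_inv := fun _ _ => rfl
      γ := moment k
      good := good_moment
      F := G
      mem := fun c _ => mem_wave (ξ := curve (moment k) c) ⟨c, by simp, rfl⟩ fun z y => by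
        simp only [hG, one_mul]
        rw [mul_left_comm, ← ec_add]
        congr 1
        refine ec_congr hq ?_
        rw [← sum_add_distrib, ← sum_sub_distrib]
        refine dvd_sum fun j _ => ?_
        rw [← mul_add, ← mul_sub]
        refine Dvd.dvd.mul_left ?_ _
        rw [← ZMod.intCast_zmod_eq_zero_iff_dvd]
        push_cast
        simp [ι]
        ring }
  have hpiece : ∀ z, S.piece 0 0 z = expSum (p ^ (k * N)) X a z := fun z => by
    simp only [DecSystem.piece, cls_zero, S, hG, expSum]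
    refine (sum_subset (range_mono hX) fun c _ hc => ?_).symm.trans (sum_congr rfl fun c hc => ?_)
    · rw [if_neg fun h => hc (mem_range.2 h), zero_mul]
    · rw [if_pos (mem_range.1 hc)]
  have hnorm : ∀ c, S.normSq c = (((p ^ (k * N)) ^ k : ℕ) : ℝ) ^ ((tri k : ℝ)⁻¹) *
      ‖if c < X then a c else 0‖ ^ 2 := fun c => by
    simp only [DecSystem.normSq, S, hG, norm_mul, norm_ec, mul_one, one_mul, sum_const, card_univ,
      nsmul_eq_mul, Fintype.card_fun, ZMod.card, Fintype.card_fin]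
    rw [Real.mul_rpow (Nat.cast_nonneg _) (by positivity), pow_mul ‖if c < X then a c else 0‖,
      Real.pow_rpow_inv_natCast (by positivity) hR.ne']
  have h := hlin _ S
  simp only [hpiece] at h
  simp only [DecSystem.mass, cls_zero, hnorm, ← mul_sum, S, one_mul, mul_pow] at h
  have hsum : ∑ c ∈ range (p ^ N), ‖if c < X then a c else 0‖ ^ 2 =
      ∑ c ∈ range X, ‖a c‖ ^ 2 := by
    refine (sum_subset (range_mono hX) fun c _ hc => ?_).symm.trans (sum_congr rfl fun c hc => ?_)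
    · rw [if_neg fun h => hc (mem_range.2 h)]; simp
    · rw [if_pos (mem_range.1 hc)]
  rw [Real.rpow_inv_natCast_pow (Nat.cast_nonneg _) hR.ne', hsum] at h
  exact h

/-- A modulus large enough for sums of `m` powers and at most a constant times `X`. -/
theorem exists_scale {p m X : ℕ} (hp : 1 < p) (hm : 1 ≤ m) (hX : 1 ≤ X) (hk : 1 ≤ k) :
    ∃ N, X ≤ p ^ N ∧ m * X ^ k < p ^ (k * N) ∧ p ^ N ≤ p * (2 * m) * X := by
  obtain ⟨N, hN⟩ : ∃ N, N = Nat.clog p (m * X + 1) := ⟨_, rfl⟩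
  have h1 : m * X + 1 ≤ p ^ N := hN ▸ Nat.le_pow_clog hp _
  refine ⟨N, le_trans (Nat.le_mul_of_pos_left X hm) (by omega), ?_, ?_⟩
  · rw [mul_comm k, pow_mul]
    calc m * X ^ k ≤ m ^ k * X ^ k := Nat.mul_le_mul_right _ (Nat.le_self_pow (by omega) m)
      _ = (m * X) ^ k := (mul_pow _ _ _).symm
      _ < (p ^ N) ^ k := Nat.pow_lt_pow_left (by omega) (by omega)
  · have hpos : 0 < m * X := Nat.mul_pos hm hX
    have h2 : p ^ (N - 1) < m * X + 1 := hN ▸ Nat.pow_pred_clog_lt_self hp (by omega)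
    have h3 : N - 1 + 1 = N := by
      have : N ≠ 0 := fun e => by rw [e, pow_zero] at h1; omega
      omega
    rw [← h3, pow_succ, mul_comm]
    calc p * p ^ (N - 1) ≤ p * (2 * m * X) := Nat.mul_le_mul_left p (by linarith)
      _ = _ := (mul_assoc _ _ _).symm

/-- The moments up to the critical one, for one large modulus. -/
theorem exists_moment_bound (hk : 1 ≤ k) {ε : ℝ} (hε : 0 < ε) (m : ℕ) :
    ∃ C : ℝ, 1 ≤ C ∧ ∀ X : ℕ, 1 ≤ X → ∀ a : ℕ → ℂ, ∃ q : ℕ,
      m * X ^ k < q ∧ tri k * X ^ k < q ∧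
      ∀ [NeZero q], ∑ z : Fin k → ZMod q, ‖expSum q X a z‖ ^ (2 * tri k) ≤
        C * (X : ℝ) ^ ε * ((q : ℝ) ^ k * (∑ c ∈ range X, ‖a c‖ ^ 2) ^ tri k) := by
  obtain ⟨p, hkp, hp⟩ := Nat.exists_infinite_primes (k + 1)
  have : Fact p.Prime := ⟨hp⟩
  obtain ⟨C, hC, hlin⟩ := growth_all (p := p) k hk (by omega) ε hε
  obtain ⟨m', hm'⟩ : ∃ m', m' = max m (tri k) := ⟨_, rfl⟩
  have hm1 : 1 ≤ m' := hm' ▸ le_max_of_le_right (tri_pos hk)
  refine ⟨max 1 (C * ((p * (2 * m') : ℕ) : ℝ) ^ ε), le_max_left _ _, fun X hX a => ?_⟩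
  obtain ⟨N, hXN, hq, hN⟩ := exists_scale (k := k) hp.one_lt hm1 hX hk
  refine ⟨p ^ (k * N), lt_of_le_of_lt (Nat.mul_le_mul_right _ (hm' ▸ le_max_left _ _)) hq,
    lt_of_le_of_lt (Nat.mul_le_mul_right _ (hm' ▸ le_max_right _ _)) hq, ?_⟩
  intro _
  refine (expSum_bound hk (hlin N) hXN a).trans ?_
  rw [Nat.cast_pow]
  refine mul_le_mul_of_nonneg_right ?_
    (mul_nonneg (by positivity) (pow_nonneg (sum_nonneg fun c _ => by positivity) _))
  rw [mul_comm ε, Real.rpow_natCast_mul (Nat.cast_nonneg p)]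
  refine (mul_le_mul_of_nonneg_left (Real.rpow_le_rpow (by positivity)
    (show ((p : ℝ) ^ N) ≤ ((p * (2 * m') : ℕ) : ℝ) * X by exact_mod_cast hN) hε.le) hC).trans ?_
  rw [Real.mul_rpow (Nat.cast_nonneg _) (Nat.cast_nonneg _), ← mul_assoc]
  exact mul_le_mul_of_nonneg_right (le_max_right _ _) (Real.rpow_nonneg (Nat.cast_nonneg _) _)

theorem energy_one (k s X : ℕ) : energy k s X (fun _ => 1) = (#(solutions k s X) : ℂ) := by
  simp [energy]

/-- The discrete restriction estimate at the critical exponent. -/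
theorem energy_bound (hk : 1 ≤ k) {ε : ℝ} (hε : 0 < ε) :
    ∃ C : ℝ, ∀ X : ℕ, 1 ≤ X → ∀ a : ℕ → ℂ,
      ‖energy k (tri k) X a‖ ≤ C * (X : ℝ) ^ ε * (∑ c ∈ range X, ‖a c‖ ^ 2) ^ tri k := by
  obtain ⟨C, -, h⟩ := exists_moment_bound hk hε (tri k)
  refine ⟨C, fun X hX a => ?_⟩
  obtain ⟨q, hq, -, h⟩ := h X hX a
  have : NeZero q := ⟨by omega⟩
  have h' := h
  rw [moment_le_energy hq hX, mul_left_comm] at h'
  exact le_of_mul_le_mul_left h' (pow_pos (Nat.cast_pos.2 (by omega)) _)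

/-- **The main conjecture in Vinogradov's mean value theorem**, upper bound. -/
theorem solutions_bound (hk : 1 ≤ k) (s : ℕ) {ε : ℝ} (hε : 0 < ε) :
    ∃ C : ℝ, ∀ X : ℕ, 1 ≤ X → (#(solutions k s X) : ℝ) ≤
      C * (X : ℝ) ^ ε * ((X : ℝ) ^ (s : ℝ) + (X : ℝ) ^ (2 * (s : ℝ) - (tri k : ℝ))) := by
  obtain ⟨C, hC, h⟩ := exists_moment_bound hk hε s
  refine ⟨C, fun X hX => ?_⟩
  obtain ⟨q, hqs, hqR, h⟩ := h X hX fun _ => 1
  have : NeZero q := ⟨by omega⟩
  have hR := tri_pos hk
  have hX0 : (0 : ℝ) < X := Nat.cast_pos.2 hX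
  have hX1 : (1 : ℝ) ≤ X := Nat.one_le_cast.2 hX
  have hqk : (0 : ℝ) < (q : ℝ) ^ k := pow_pos (Nat.cast_pos.2 (by omega)) _
  have hC0 : 0 ≤ C := le_trans zero_le_one hC
  have hJ : ∀ i, i * X ^ k < q →
      ∑ z : Fin k → ZMod q, ‖expSum q X (fun _ => 1) z‖ ^ (2 * i) =
        (q : ℝ) ^ k * #(solutions k i X) := fun i hi => by
    rw [moment_le_energy hi hX, energy_one, Complex.norm_natCast]
  have h' := h
  simp only [norm_one, one_pow, sum_const, card_range, nsmul_one] at h'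
  rcases le_or_gt s (tri k) with hs | hs
  · have hh := (holder_pow (univ : Finset (Fin k → ZMod q)) (w := fun _ => 1)
      (f := fun z => ‖expSum q X (fun _ => 1) z‖ ^ (2 * s))
      (Y := fun z => ‖expSum q X (fun _ => 1) z‖ ^ (2 * tri k)) (Z := fun _ => 1) hs hR
      (fun _ => zero_le_one) (fun z => by positivity) (fun z => by positivity)
      (fun _ => zero_le_one) fun z => by rw [one_pow, mul_one, ← pow_mul, ← pow_mul]; ring)
    simp only [one_mul, mul_one, hJ s hqs, sum_const, card_univ, nsmul_one, Fintype.card_fun,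
      ZMod.card, Fintype.card_fin, Nat.cast_pow] at hh
    have hh2 := hh.trans (mul_le_mul_of_nonneg_right (pow_le_pow_left₀ (by positivity) h' s)
      (by positivity))
    rw [mul_left_comm (C * (X : ℝ) ^ ε), mul_pow ((q : ℝ) ^ k), mul_pow ((q : ℝ) ^ k),
      mul_right_comm, ← pow_add, Nat.add_sub_cancel' hs] at hh2
    refine le_trans (le_of_pow_le hR.ne' (by positivity) ((le_of_mul_le_mul_left hh2
      (pow_pos hqk _)).trans ?_)) (mul_le_mul_of_nonneg_left
        (le_add_of_nonneg_right (Real.rpow_nonneg hX0.le _)) (mul_nonneg hC0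
          (Real.rpow_nonneg hX0.le _)))
    rw [Real.rpow_natCast, mul_pow, mul_pow (C * (X : ℝ) ^ ε), ← pow_mul (X : ℝ) (tri k),
      ← pow_mul (X : ℝ) s, mul_comm (tri k) s]
    exact mul_le_mul_of_nonneg_right
      (pow_le_pow_right₀ (one_le_mul_of_one_le_of_one_le hC (Real.one_le_rpow hX1 hε.le)) hs)
      (by positivity)
  · have h1 : ∑ z : Fin k → ZMod q, ‖expSum q X (fun _ => 1) z‖ ^ (2 * s) ≤
        (X : ℝ) ^ (2 * (s - tri k)) *
          ∑ z : Fin k → ZMod q, ‖expSum q X (fun _ => 1) z‖ ^ (2 * tri k) := by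
      rw [mul_sum]
      refine sum_le_sum fun z _ => ?_
      rw [show 2 * s = 2 * (s - tri k) + 2 * tri k by omega, pow_add]
      refine mul_le_mul_of_nonneg_right (pow_le_pow_left₀ (norm_nonneg _) ?_ _) (by positivity)
      refine (norm_sum_le _ _).trans_eq ?_
      simp [norm_ec]
    rw [hJ s hqs] at h1
    have h2 := h1.trans (mul_le_mul_of_nonneg_left h' (by positivity))
    rw [mul_left_comm (C * (X : ℝ) ^ ε), mul_left_comm] at h2
    refine (le_of_mul_le_mul_left h2 hqk).trans (le_trans (le_of_eq ?_)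
      (mul_le_mul_of_nonneg_left (le_add_of_nonneg_left (Real.rpow_nonneg hX0.le _))
        (mul_nonneg hC0 (Real.rpow_nonneg hX0.le _))))
    rw [mul_left_comm, ← pow_add, ← Real.rpow_natCast]
    congr 2
    rw [Nat.cast_add, Nat.cast_mul, Nat.cast_sub hs.le]
    push_cast
    ring

/-- The trivial lower bound. -/
theorem solutions_ge_diag (k s X : ℕ) : X ^ s ≤ #(solutions k s X) := by
  calc X ^ s = #(Fintype.piFinset fun _ : Fin s => range X) := by simp
    _ ≤ _ := card_le_card_of_injOn (fun x => (x, x)) (fun x hx => by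
        simp only [solutions, mem_coe, mem_filter, mem_product] at hx ⊢
        exact ⟨⟨hx, hx⟩, trivial⟩) fun x _ y _ e => congrArg Prod.fst e

/-- The lower bound by the pigeonhole principle. -/
theorem solutions_ge_values {s X : ℕ} (hX : 1 ≤ X) :
    X ^ (2 * s) ≤ (s + 1) ^ k * X ^ tri k * #(solutions k s X) := by
  obtain ⟨B, hB⟩ : ∃ B, B = Fintype.piFinset fun _ : Fin s => range X := ⟨_, rfl⟩
  obtain ⟨V, hV⟩ : ∃ V, V = Fintype.piFinset fun j : Fin k => Icc (0 : ℤ) (s * X ^ (j.1 + 1) : ℕ) :=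
    ⟨_, rfl⟩
  have hmaps : ∀ x ∈ B, powerSums k x ∈ V := fun x hx => by
    rw [hV, Fintype.mem_piFinset]
    refine fun j => mem_Icc.2 ⟨sum_nonneg fun i _ => by positivity, ?_⟩
    refine (sum_le_card_nsmul _ _ ((X ^ (j.1 + 1) : ℕ) : ℤ) fun i _ => ?_).trans_eq (by simp)
    rw [← Nat.cast_pow, Nat.cast_le]
    rw [hB, Fintype.mem_piFinset] at hx
    exact Nat.pow_le_pow_left (mem_range.1 (hx i)).le _
  have hcard : #V ≤ (s + 1) ^ k * X ^ tri k := by
    rw [hV, Fintype.card_piFinset]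
    calc ∏ j : Fin k, #(Icc (0 : ℤ) (s * X ^ (j.1 + 1) : ℕ))
        ≤ ∏ j : Fin k, (s + 1) * X ^ (j.1 + 1) := prod_le_prod' fun j _ => by
          rw [Int.card_Icc, sub_zero, show ((s * X ^ (j.1 + 1) : ℕ) : ℤ) + 1 =
            ((s * X ^ (j.1 + 1) + 1 : ℕ) : ℤ) by push_cast; ring, Int.toNat_natCast, add_mul,
            one_mul]
          exact Nat.add_le_add_left (Nat.one_le_pow _ _ hX) _
      _ = _ := by
          rw [prod_mul_distrib, prod_const, card_univ, Fintype.card_fin, prod_pow_eq_pow_sum,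
            Fin.sum_univ_eq_sum_range (fun i => i + 1), tri]
  have hsol : ∑ v ∈ V, (#(B.filter fun x => powerSums k x = v)) ^ 2 ≤ #(solutions k s X) := by
    rw [card_eq_sum_card_fiberwise (f := fun z => powerSums k z.1) (t := V) (s := solutions k s X)
      fun z hz => hmaps _ (hB ▸ (mem_product.1 (mem_filter.1 hz).1).1)]
    refine sum_le_sum fun v _ => ?_
    rw [sq, ← card_product]
    refine card_le_card fun z hz => ?_
    simp only [mem_product, mem_filter, hB] at hz
    simp only [solutions, mem_filter, mem_product]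
    exact ⟨⟨⟨hz.1.1, hz.2.1⟩, hz.1.2.trans hz.2.2.symm⟩, hz.1.2⟩
  have hcs : (∑ v ∈ V, #(B.filter fun x => powerSums k x = v)) ^ 2 ≤
      #V * ∑ v ∈ V, (#(B.filter fun x => powerSums k x = v)) ^ 2 :=
    sq_sum_le_card_mul_sum_sq
  rw [← card_eq_sum_card_fiberwise hmaps, show #B = X ^ s by simp [hB], ← pow_mul, mul_comm s]
    at hcs
  exact hcs.trans (Nat.mul_le_mul hcard hsol)

end FA.VMC
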