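import Fermat.Agent.VinogradovMainConjecture.Estimates
import Mathlib.Analysis.SpecialFunctions.Pow.Real
import Mathlib.Data.Nat.Prime.Int

/-!
# Decoupling for the moment curve at the critical exponent

Iterating the exchange and the lowering of the degree gains a multiple of the scale that grows
linearly with the number of steps, so the exponent of the decoupling constant vanishes.
-/

set_option autoImplicit false

noncomputable section

namespace FA.VMC

open Finset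

variable {p k : ℕ}

/-- The decoupling constant grows at most like `p ^ (η N)`. -/
def Growth (p k : ℕ) (η : ℝ) : Prop :=
  ∃ C : ℝ, 0 ≤ C ∧ ∀ N : ℕ, Lin p k N (C * (p : ℝ) ^ (η * N))

theorem Growth.mono (hp : 1 ≤ p) {η η' : ℝ} (h : Growth p k η) (hle : η ≤ η') : Growth p k η' := by
  obtain ⟨C, hC, h⟩ := h
  exact ⟨C, hC, fun N => (h N).mono (mul_le_mul_of_nonneg_left
    (Real.rpow_le_rpow_of_exponent_le (Nat.one_le_cast.2 hp)
      (mul_le_mul_of_nonneg_right hle (Nat.cast_nonneg N))) hC)⟩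

theorem growth_trivial (hp : 0 < p) (hk : 1 ≤ k) : Growth p k ((2 * tri k : ℕ) : ℝ) :=
  ⟨1, zero_le_one, fun N => (lin_trivial hp hk).mono (le_of_eq (by
    rw [one_mul, ← pow_mul, ← Nat.cast_mul, Real.rpow_natCast, mul_comm N]))⟩

/-- The gain after `n` rounds. -/
def gain (k : ℕ) : ℕ → ℕ → ℝ
  | 0, l => if l = 0 then 1 else 0
  | n + 1, l => if l = 0 then 1 else
      gain k n (k - l) / l + ((k - l : ℕ) : ℝ) / ((k - l + 1 : ℕ) : ℝ) * gain k n (l - 1)

theorem gain_zero_right (k n : ℕ) : gain k n 0 = 1 := by cases n <;> rfl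

theorem sum_gain (d n : ℕ) :
    ∑ i ∈ range d, gain (d + 1) n (i + 1) = n * ((d : ℝ) / (d + 1)) := by
  induction n with
  | zero => simp [gain]
  | succ n ih =>
    have h : ∀ i ∈ range d, gain (d + 1) (n + 1) (i + 1) =
        gain (d + 1) n (d - i) / (i + 1 : ℕ) +
          ((d - i : ℕ) : ℝ) / ((d - i + 1 : ℕ) : ℝ) * gain (d + 1) n i := fun i _ => by
      rw [gain, if_neg (Nat.succ_ne_zero i), Nat.add_sub_add_right, Nat.add_sub_cancel]
    rw [sum_congr rfl h, sum_add_distrib,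
      ← sum_range_reflect (fun i => gain (d + 1) n (d - i) / ((i + 1 : ℕ) : ℝ))]
    rcases d with _ | d
    · simp
    rw [sum_range_succ' (fun i => ((d + 1 - i : ℕ) : ℝ) / ((d + 1 - i + 1 : ℕ) : ℝ) *
      gain (d + 1 + 1) n i)]
    have hext : ∑ i ∈ range d, ((d + 1 - (i + 1) : ℕ) : ℝ) /
        ((d + 1 - (i + 1) + 1 : ℕ) : ℝ) * gain (d + 1 + 1) n (i + 1) =
        ∑ i ∈ range (d + 1), ((d + 1 - (i + 1) : ℕ) : ℝ) /
          ((d + 1 - (i + 1) + 1 : ℕ) : ℝ) * gain (d + 1 + 1) n (i + 1) := by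
      rw [sum_range_succ]; simp
    rw [hext, ← add_assoc, ← sum_add_distrib]
    have he : ∀ i ∈ range (d + 1),
        gain (d + 1 + 1) n (d + 1 - (d + 1 - 1 - i)) / ((d + 1 - 1 - i + 1 : ℕ) : ℝ) +
          ((d + 1 - (i + 1) : ℕ) : ℝ) / ((d + 1 - (i + 1) + 1 : ℕ) : ℝ) *
            gain (d + 1 + 1) n (i + 1) = gain (d + 1 + 1) n (i + 1) := fun i hi => by
      rw [mem_range] at hi
      rw [show d + 1 - (d + 1 - 1 - i) = i + 1 by omega,
        show d + 1 - 1 - i = d - i by omega, show d + 1 - (i + 1) = d - i by omega]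
      push_cast
      have : ((d - i : ℕ) : ℝ) + 1 ≠ 0 := by positivity
      field_simp
      ring
    rw [sum_congr rfl he, ih, Nat.sub_zero, gain_zero_right]
    push_cast
    ring

theorem exists_gain (hk : 2 ≤ k) (n : ℕ) : ∃ l, 1 ≤ l ∧ l < k ∧ (n : ℝ) / k ≤ gain k n l := by
  obtain ⟨d, rfl⟩ : ∃ d, k = d + 1 := ⟨k - 1, by omega⟩
  obtain ⟨i, hi, hle⟩ := exists_le_of_sum_le
    (show (range d).Nonempty from ⟨0, mem_range.2 (by omega)⟩)
    (show ∑ _i ∈ range d, (n : ℝ) / ((d + 1 : ℕ) : ℝ) ≤ ∑ i ∈ range d, gain (d + 1) n (i + 1) from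
      le_of_eq (by rw [sum_gain, sum_const, card_range, nsmul_eq_mul]; push_cast; ring))
  exact ⟨i + 1, by omega, by rw [mem_range] at hi; omega, hle⟩

/-- The property kept along the iteration. -/
def Step (p k : ℕ) (η : ℝ) (n : ℕ) : Prop :=
  ∀ ε : ℝ, 0 < ε → ∃ C : ℝ, 1 ≤ C ∧ ∀ N b l a : ℕ, 1 ≤ l → l < k → k.factorial ^ (n + 1) ∣ b →
    1 ≤ b → k ^ (n + 2) * b ≤ N → l * a = (k - l + 1) * b →
      Bil p k N l a b (C * (p : ℝ) ^ ((η + ε) * N - η * gain k n l * b))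

variable [Fact p.Prime]

theorem one_le_p : (1 : ℝ) ≤ p := Nat.one_le_cast.2 (Fact.out : p.Prime).one_lt.le

theorem rpow_p_mono {x y : ℝ} (h : x ≤ y) : (p : ℝ) ^ x ≤ (p : ℝ) ^ y :=
  Real.rpow_le_rpow_of_exponent_le one_le_p h

theorem rpow_p_add (x y : ℝ) : (p : ℝ) ^ (x + y) = (p : ℝ) ^ x * (p : ℝ) ^ y :=
  Real.rpow_add (Nat.cast_pos.2 (Fact.out : p.Prime).pos) x y

omit [Fact p.Prime] in
theorem rpow_p_nonneg (x : ℝ) : 0 ≤ (p : ℝ) ^ x := Real.rpow_nonneg (Nat.cast_nonneg p) x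

theorem step_zero (hk1 : 1 ≤ k) (hk : k < p) {η : ℝ} (hη0 : 0 ≤ η) (h : Growth p k η) :
    Step p k η 0 := by
  obtain ⟨C, hC, h⟩ := h
  intro ε hε
  refine ⟨max C 1, le_max_right _ _, fun N b l a hl1 hl _ hb hbN hab => ?_⟩
  have hab' : a ≤ k * b := by
    calc a ≤ l * a := Nat.le_mul_of_pos_left a hl1
      _ = (k - l + 1) * b := hab
      _ ≤ k * b := Nat.mul_le_mul_right b (by omega)
  have hkb : k * b ≤ N := by
    refine le_trans (Nat.mul_le_mul_right b ?_) hbN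
    exact Nat.le_self_pow two_ne_zero k
  have hK : ∀ i ≤ N, C * (p : ℝ) ^ (η * ((N - i : ℕ) : ℝ)) ≤
      max C 1 * (p : ℝ) ^ ((η + ε) * N - η * gain k 0 l * b) := fun i _ => by
    refine mul_le_mul (le_max_left _ _) (rpow_p_mono ?_) (rpow_p_nonneg _) (by positivity)
    rw [gain, if_neg (by omega), mul_zero, zero_mul, sub_zero]
    have : ((N - i : ℕ) : ℝ) ≤ N := Nat.cast_le.2 (Nat.sub_le N i)
    nlinarith [Nat.cast_nonneg (α := ℝ) N]
  refine bil_trivial hl.le hk1 hk (hab'.trans hkb) (le_trans (Nat.le_mul_of_pos_left b hk1) hkb)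
    (mul_nonneg (by positivity) (rpow_p_nonneg _)) ?_ ?_
  · exact (h (N - a)).mono (hK a (hab'.trans hkb))
  · exact (h (N - b)).mono (hK b (le_trans (Nat.le_mul_of_pos_left b hk1) hkb))

omit [Fact p.Prime] in
/-- Uniform constants in the lower degrees. -/
theorem exists_lower_const (IH : ∀ l, 1 ≤ l → l < k → ∀ ε : ℝ, 0 < ε → Growth p l ε) {ε : ℝ}
    (hε : 0 < ε) : ∃ C : ℝ, 1 ≤ C ∧
      ∀ l, 1 ≤ l → l < k → ∀ n : ℕ, Lin p l n (C * (p : ℝ) ^ (ε * n)) := by
  choose C hC h using fun l : {l // 1 ≤ l ∧ l < k} => IH l.1 l.2.1 l.2.2 ε hε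
  have : Finite {l // 1 ≤ l ∧ l < k} :=
    Finite.of_injective (fun l => (⟨l.1, l.2.2⟩ : Fin k))
      fun a b e => Subtype.ext (congrArg Fin.val e)
  obtain ⟨B, hB⟩ := Finite.exists_le C
  exact ⟨max B 1, le_max_right _ _, fun l h1 h2 n => (h ⟨l, h1, h2⟩ n).mono
    (mul_le_mul_of_nonneg_right ((hB _).trans (le_max_left _ _)) (rpow_p_nonneg _))⟩

theorem step_succ (hk : k < p) (IH : ∀ l, 1 ≤ l → l < k → ∀ ε : ℝ, 0 < ε → Growth p l ε) {η : ℝ}
    (h : Growth p k η) {n : ℕ} (hn : Step p k η n) : Step p k η (n + 1) := by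
  intro ε hε
  obtain ⟨C₀, hC₀, hlow⟩ := exists_lower_const IH (half_pos hε)
  obtain ⟨Cη, hCη, hη⟩ := h
  obtain ⟨Cn, hCn, hn⟩ := hn (ε / 2) (half_pos hε)
  obtain ⟨C, hCdef⟩ : ∃ C, C = max (C₀ * Cn) (max Cη 1) := ⟨_, rfl⟩
  have hC1 : 1 ≤ C := hCdef ▸ (le_max_right _ _).trans (le_max_right _ _)
  refine ⟨C, hC1, fun N b l a hl1 hl hdvd hb hbN hab => ?_⟩
  have hkpos : 0 < k := by omega
  have hQ : ∀ i, 1 ≤ i → i ≤ k → i ∣ k.factorial := fun i h1 h2 => Nat.dvd_factorial h1 h2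
  have hab' : a ≤ k * b := by
    calc a ≤ l * a := Nat.le_mul_of_pos_left a hl1
      _ = (k - l + 1) * b := hab
      _ ≤ k * b := Nat.mul_le_mul_right b (by omega)
  have ha1 : 1 ≤ a := by
    refine Nat.one_le_iff_ne_zero.2 fun e => ?_
    rw [e, mul_zero] at hab
    rcases Nat.mul_eq_zero.1 hab.symm with h | h <;> omega
  have hdvd' : k.factorial ^ (n + 1) ∣ b :=
    (pow_dvd_pow _ (Nat.le_succ _)).trans hdvd
  have hdvda : k.factorial ^ (n + 1) ∣ a := by
    obtain ⟨q, rfl⟩ := hdvd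
    obtain ⟨e, he⟩ := hQ l hl1 hl.le
    refine ⟨(k - l + 1) * e * q, Nat.eq_of_mul_eq_mul_left hl1 ?_⟩
    rw [hab, pow_succ _ (n + 1)]
    calc (k - l + 1) * (k.factorial ^ (n + 1) * k.factorial * q)
        = (k - l + 1) * (k.factorial ^ (n + 1) * (l * e) * q) := by rw [← he]
      _ = _ := by ring
  have hbN' : k ^ (n + 2) * (k * b) ≤ N := by rwa [← mul_assoc, ← pow_succ]
  have hk2 : k * (k * b) ≤ N :=
    le_trans (Nat.mul_le_mul_right _ (Nat.le_self_pow (by omega) k)) hbN'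
  -- the first factor
  obtain ⟨a', ha'⟩ : ∃ a', (k - l) * a' = (l + 1) * a := by
    obtain ⟨q, hq⟩ : k - l ∣ (l + 1) * a :=
      (((hQ _ (by omega) (Nat.sub_le k l)).trans (dvd_pow_self _ (Nat.succ_ne_zero n))).trans
        hdvda).mul_left _
    exact ⟨q, hq.symm⟩
  have hba' : b ≤ a' := by
    refine Nat.le_of_mul_le_mul_left ?_ (Nat.mul_pos hl1 (by omega) : 0 < l * (k - l))
    calc l * (k - l) * b ≤ (l + 1) * (k - l + 1) * b :=
          Nat.mul_le_mul_right b (Nat.mul_le_mul (by omega) (by omega))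
      _ = (l + 1) * (l * a) := by rw [hab]; ring
      _ = l * ((k - l) * a') := by rw [ha']; ring
      _ = _ := by ring
  have ha'N : a' ≤ N := by
    calc a' ≤ (k - l) * a' := Nat.le_mul_of_pos_left a' (by omega)
      _ = (l + 1) * a := ha'
      _ ≤ k * (k * b) := Nat.mul_le_mul hl hab'
      _ ≤ N := hk2
  have hCn0 : 0 ≤ Cn := le_trans zero_le_one hCn
  have hC₀0 : 0 ≤ C₀ := le_trans zero_le_one hC₀
  have hkl : k - (k - l) = l := by omega
  have h1 : Bil p k N (k - l) b a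
      (C * (p : ℝ) ^ ((η + ε) * N - η * gain k n (k - l) * a)) := by
    have hf := hn N a (k - l) a' (by omega) (by omega) hdvda ha1
      (le_trans (Nat.mul_le_mul_left _ hab') hbN') (by rw [hkl, ha'])
    have hlow' := bil_lower (by omega) (by omega) hk hb hba' ha'N
      (hab'.trans (le_trans (Nat.le_mul_of_pos_left _ hkpos) hk2)) (by rw [hkl, ha'])
      (mul_nonneg hC₀0 (rpow_p_nonneg _)) (mul_nonneg hCn0 (rpow_p_nonneg _))
      (hlow (k - l) (by omega) (by omega) (a' - b)) hf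
    intro X _ _ S r r' hne
    refine (hlow' X S r r' hne).trans (mul_le_mul_of_nonneg_right ?_
      (mul_nonneg (pow_nonneg (S.mass_nonneg _ _) _) (pow_nonneg (S.mass_nonneg _ _) _)))
    rw [mul_mul_mul_comm, ← rpow_p_add, hCdef]
    refine mul_le_mul (le_max_left _ _) (rpow_p_mono ?_) (rpow_p_nonneg _) (by positivity)
    have : ((a' - b : ℕ) : ℝ) ≤ N := Nat.cast_le.2 ((Nat.sub_le _ _).trans ha'N)
    nlinarith
  -- the second factor
  have h2 : Bil p k N (l - 1) a b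
      (C * (p : ℝ) ^ ((η + ε) * N - η * gain k n (l - 1) * b)) := by
    have hbN1 : b ≤ N :=
      le_trans (Nat.le_mul_of_pos_left b hkpos) (le_trans (Nat.le_mul_of_pos_left _ hkpos) hk2)
    rcases Nat.eq_zero_or_pos (l - 1) with h0 | h0
    · rw [h0, gain_zero_right]
      refine bil_zero hbN1 hk ((hη (N - b)).mono ?_)
      rw [hCdef]
      refine mul_le_mul ((le_max_left _ _).trans (le_max_right _ _)) (rpow_p_mono ?_)
        (rpow_p_nonneg _) (by positivity)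
      rw [Nat.cast_sub hbN1]
      nlinarith [Nat.cast_nonneg (α := ℝ) N]
    obtain ⟨a'', ha''⟩ : ∃ a'', (l - 1) * a'' = (k - (l - 1) + 1) * b := by
      obtain ⟨q, hq⟩ : l - 1 ∣ (k - (l - 1) + 1) * b :=
        (((hQ _ h0 (by omega)).trans (dvd_pow_self _ (Nat.succ_ne_zero n))).trans hdvd').mul_left _
      exact ⟨q, hq.symm⟩
    have haa : a ≤ a'' := by
      refine Nat.le_of_mul_le_mul_left ?_ h0
      calc (l - 1) * a ≤ l * a := Nat.mul_le_mul_right a (Nat.sub_le _ _)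
        _ = (k - l + 1) * b := hab
        _ ≤ (k - (l - 1) + 1) * b := Nat.mul_le_mul_right b (by omega)
        _ = _ := ha''.symm
    have ha''N : a'' ≤ N := by
      calc a'' ≤ (l - 1) * a'' := Nat.le_mul_of_pos_left a'' h0
        _ = (k - (l - 1) + 1) * b := ha''
        _ ≤ k * b := Nat.mul_le_mul_right b (by omega)
        _ ≤ k * (k * b) := Nat.le_mul_of_pos_left _ hkpos
        _ ≤ N := hk2
    have hf := hn N b (l - 1) a'' h0 (by omega) hdvd' hb
      (le_trans (Nat.mul_le_mul_left _ (Nat.le_mul_of_pos_left b hkpos)) hbN') ha''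
    have hlow' := bil_lower h0 (by omega) hk ha1 haa ha''N hbN1 ha''
      (mul_nonneg hC₀0 (rpow_p_nonneg _)) (mul_nonneg hCn0 (rpow_p_nonneg _))
      (hlow (l - 1) h0 (by omega) (a'' - a)) hf
    intro X _ _ S r r' hne
    refine (hlow' X S r r' hne).trans (mul_le_mul_of_nonneg_right ?_
      (mul_nonneg (pow_nonneg (S.mass_nonneg _ _) _) (pow_nonneg (S.mass_nonneg _ _) _)))
    rw [mul_mul_mul_comm, ← rpow_p_add, hCdef]
    refine mul_le_mul (le_max_left _ _) (rpow_p_mono ?_) (rpow_p_nonneg _) (by positivity)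
    have : ((a'' - a : ℕ) : ℝ) ≤ N := Nat.cast_le.2 ((Nat.sub_le _ _).trans ha''N)
    nlinarith
  have hC0 : 0 ≤ C := le_trans zero_le_one hC1
  refine bil_exchange hl1 hl (mul_nonneg hC0 (rpow_p_nonneg _)) h1 h2
    (mul_nonneg hC0 (rpow_p_nonneg _)) (le_of_eq ?_)
  rw [mul_pow, mul_pow, mul_mul_mul_comm, ← pow_succ' C,
    ← Real.rpow_mul_natCast (Nat.cast_nonneg p),
    ← Real.rpow_mul_natCast (Nat.cast_nonneg p), ← rpow_p_add]
  congr 2
  have habR : (l : ℝ) * a = ((k - l + 1 : ℕ) : ℝ) * b := by exact_mod_cast hab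
  rw [show gain k (n + 1) l = gain k n (k - l) / l +
      ((k - l : ℕ) : ℝ) / ((k - l + 1 : ℕ) : ℝ) * gain k n (l - 1) by rw [gain, if_neg (by omega)]]
  push_cast at habR ⊢
  have hlR : (l : ℝ) ≠ 0 := Nat.cast_ne_zero.2 (by omega)
  have hmR : ((k - l : ℕ) : ℝ) + 1 ≠ 0 := by positivity
  field_simp
  linear_combination (-(η * gain k n (k - l))) * habR

theorem exists_step (hk1 : 1 ≤ k) (hk : k < p)
    (IH : ∀ l, 1 ≤ l → l < k → ∀ ε : ℝ, 0 < ε → Growth p l ε) {η : ℝ} (hη0 : 0 ≤ η)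
    (h : Growth p k η) : ∀ n, Step p k η n
  | 0 => step_zero hk1 hk hη0 h
  | n + 1 => step_succ hk IH h (exists_step hk1 hk IH hη0 h n)

/-- The bilinear constant with a power saving. -/
theorem symBil_saving (hk2 : 2 ≤ k) (hk : k < p) {η ε : ℝ} (hη0 : 0 ≤ η) (hε : 0 < ε) {n : ℕ}
    (hn : Step p k η n) (hgain : ((k + 1) * (2 * tri k + 1) : ℕ) + 1 ≤ η * ((n : ℝ) / k)) {e : ℝ}
    (he0 : 0 ≤ e) (he : η + ε - 1 / (k ^ (n + 2) : ℕ) ≤ e) (L : ℕ) :
    ∃ C : ℝ, 0 ≤ C ∧ ∀ N, SymBil p k N L (C * (p : ℝ) ^ (e * N)) := by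
  obtain ⟨l, hl1, hl, hgl⟩ := exists_gain hk2 n
  obtain ⟨C, hC, hn⟩ := hn ε hε
  obtain ⟨M, hM⟩ : ∃ M, M = k ^ (n + 2) := ⟨_, rfl⟩
  obtain ⟨Q, hQ⟩ : ∃ Q, Q = k.factorial ^ (n + 1) := ⟨_, rfl⟩
  have hMpos : 0 < M := hM ▸ pow_pos (by omega) _
  have hQpos : 0 < Q := hQ ▸ pow_pos (Nat.factorial_pos k) _
  obtain ⟨N₀, hN₀⟩ : ∃ N₀, N₀ = M * (Q * (k * L + 1)) := ⟨_, rfl⟩
  refine ⟨max (((p : ℝ) ^ N₀) ^ (2 * tri k)) (C * (p : ℝ) ^ (Q : ℝ)), by positivity, fun N => ?_⟩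
  intro X _ _ S a r r' ha1 haL haN hne
  have hM' : 0 ≤ S.mass 0 0 ^ tri k := pow_nonneg (S.mass_nonneg 0 0) _
  rcases le_or_gt N N₀ with hN | hN
  · have hK : ∀ i, Lin p k (N - i) (((p : ℝ) ^ N₀) ^ (2 * tri k)) := fun i =>
      (lin_trivial (Fact.out : p.Prime).pos (by omega)).mono
        (pow_le_pow_left₀ (by positivity) (pow_le_pow_right₀ one_le_p (by omega)) _)
    refine (bil_sym hl.le (by positivity)
      (bil_trivial hl.le (by omega) hk haN haN (by positivity) (hK a) (hK a)) S hne).trans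
        (mul_le_mul_of_nonneg_right ?_ hM')
    refine (le_mul_of_one_le_right (by positivity)
      (Real.one_le_rpow one_le_p (by positivity))).trans
      (mul_le_mul_of_nonneg_right (le_max_left _ _) (rpow_p_nonneg _))
  obtain ⟨q, hq⟩ : ∃ q, q = N / (M * Q) := ⟨_, rfl⟩
  obtain ⟨b, hb⟩ : ∃ b, b = Q * q := ⟨_, rfl⟩
  have hq1 : k * L + 1 ≤ q := by
    rw [hq, Nat.le_div_iff_mul_le (Nat.mul_pos hMpos hQpos)]
    calc (k * L + 1) * (M * Q) = N₀ := by rw [hN₀]; ring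
      _ ≤ N := hN.le
  have hqb : q ≤ b := hb ▸ Nat.le_mul_of_pos_left q hQpos
  have hbN : M * b ≤ N := by
    rw [hb, ← mul_assoc, hq, mul_comm]
    exact Nat.div_mul_le_self _ _
  have hbN1 : N < M * (b + Q) := by
    have := Nat.lt_div_mul_add (a := N) (Nat.mul_pos hMpos hQpos)
    rw [hb, hq]
    calc N < N / (M * Q) * (M * Q) + M * Q := this
      _ = _ := by ring
  obtain ⟨a', ha'⟩ : ∃ a', l * a' = (k - l + 1) * b := by
    obtain ⟨c, hc⟩ : l ∣ (k - l + 1) * b := by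
      refine Dvd.dvd.mul_left ?_ _
      rw [hb, hQ]
      exact Dvd.dvd.mul_right
        ((Nat.dvd_factorial hl1 hl.le).trans (dvd_pow_self _ (Nat.succ_ne_zero n))) _
    exact ⟨c, hc.symm⟩
  have ha'k : a' ≤ k * b := by
    calc a' ≤ l * a' := Nat.le_mul_of_pos_left a' hl1
      _ = (k - l + 1) * b := ha'
      _ ≤ k * b := Nat.mul_le_mul_right b (by omega)
  have hba' : L ≤ a' := by
    refine Nat.le_of_mul_le_mul_left ?_ (show 0 < l by omega)
    calc l * L ≤ k * L := Nat.mul_le_mul_right L hl.le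
      _ ≤ b := by omega
      _ ≤ (k - l + 1) * b := Nat.le_mul_of_pos_left b (Nat.succ_pos _)
      _ = _ := ha'.symm
  have hLb : L ≤ b := le_trans (Nat.le_mul_of_pos_left L (by omega : 0 < k)) (by omega)
  have hf := hn N b l a' hl1 hl (hQ ▸ ⟨q, hb⟩) (by omega) (hM ▸ hbN) ha'
  have hC0 : 0 ≤ C := le_trans zero_le_one hC
  have hlift := bil_lift hl1 hl ha1 ha1 (haL.trans hba') (haL.trans hLb)
    (mul_nonneg hC0 (rpow_p_nonneg _)) hf
  refine (bil_sym hl.le (mul_nonneg (by positivity) (mul_nonneg hC0 (rpow_p_nonneg _)))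
    hlift S hne).trans (mul_le_mul_of_nonneg_right ?_ hM')
  refine le_trans ?_ (mul_le_mul_of_nonneg_right (le_max_right _ _) (rpow_p_nonneg _))
  rw [← pow_add, ← pow_mul, ← Real.rpow_natCast, mul_left_comm, ← rpow_p_add, mul_assoc C,
    ← rpow_p_add]
  refine mul_le_mul_of_nonneg_left (rpow_p_mono ?_) hC0
  have h1 : (((a' + b) * (2 * tri k + 1) : ℕ) : ℝ) ≤
      (((k + 1) * (2 * tri k + 1) : ℕ) : ℝ) * b := by
    rw [← Nat.cast_mul, Nat.cast_le]
    calc (a' + b) * (2 * tri k + 1) ≤ (k * b + b) * (2 * tri k + 1) :=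
          Nat.mul_le_mul_right _ (by omega)
      _ = _ := by ring
  have h2 : ((((k + 1) * (2 * tri k + 1) : ℕ) : ℝ) + 1) * b ≤ η * gain k n l * b :=
    mul_le_mul_of_nonneg_right (hgain.trans (mul_le_mul_of_nonneg_left hgl hη0))
      (Nat.cast_nonneg b)
  have h3 : (N : ℝ) / M - Q ≤ b := by
    rw [sub_le_iff_le_add, div_le_iff₀ (Nat.cast_pos.2 hMpos)]
    exact_mod_cast (by rw [mul_comm]; exact hbN1.le : N ≤ (b + Q) * M)
  have h4 : (η + ε) * N - (N : ℝ) / M ≤ e * N := by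
    rw [← hM] at he
    calc (η + ε) * N - (N : ℝ) / M = (η + ε - 1 / (M : ℝ)) * N := by ring
      _ ≤ e * N := mul_le_mul_of_nonneg_right he (Nat.cast_nonneg N)
  linarith

/-- The exponent can be lowered. -/
theorem growth_improve (hk2 : 2 ≤ k) (hk : k < p) {e : ℝ} (he : 0 < e)
    (hsym : ∀ L, ∃ C : ℝ, 0 ≤ C ∧ ∀ N, SymBil p k N L (C * (p : ℝ) ^ (e * N))) :
    Growth p k e := by
  have hp0 : (0 : ℝ) < p := Nat.cast_pos.2 (Fact.out : p.Prime).pos
  have hpe : 1 < (p : ℝ) ^ e :=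
    Real.one_lt_rpow (Nat.one_lt_cast.2 (Fact.out : p.Prime).one_lt) he
  obtain ⟨L, hL⟩ := pow_unbounded_of_one_lt (2 * 2 ^ (2 * tri k) : ℝ) hpe
  have hL1 : 1 ≤ L := by
    refine Nat.one_le_iff_ne_zero.2 fun h => ?_
    rw [h, pow_zero] at hL
    linarith [one_le_pow₀ (n := 2 * tri k) (one_le_two (α := ℝ))]
  rw [← Real.rpow_mul_natCast hp0.le] at hL
  obtain ⟨S, hS, hsym⟩ := hsym L
  obtain ⟨A, hA⟩ : ∃ A, A = (2 * (p : ℝ) ^ L) ^ (2 * tri k) * ((p : ℝ) ^ L * (p : ℝ) ^ L) :=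
    ⟨_, rfl⟩
  obtain ⟨C, hC⟩ : ∃ C, C = max (((p : ℝ) ^ L) ^ (2 * tri k)) (2 * A * S) := ⟨_, rfl⟩
  have hC0 : 0 ≤ C := hC ▸ le_max_of_le_left (by positivity)
  refine ⟨C, hC0, fun N => ?_⟩
  induction N using Nat.strong_induction_on with
  | _ N ih =>
    rcases lt_or_ge N L with hN | hN
    · refine (lin_trivial (Fact.out : p.Prime).pos (by omega)).mono ?_
      refine le_trans ?_ (le_mul_of_one_le_right hC0
        (Real.one_le_rpow one_le_p (by positivity)))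
      exact (pow_le_pow_left₀ (by positivity) (pow_le_pow_right₀ one_le_p hN.le) _).trans
        (hC ▸ le_max_left _ _)
    · have h1 : ∀ i < L, SymBil p k (N - i) L (S * (p : ℝ) ^ (e * N)) := fun i _ => by
        intro X _ _ T a r r' ha1 ha2 ha3 hne
        refine (hsym (N - i) X T a r r' ha1 ha2 ha3 hne).trans (mul_le_mul_of_nonneg_right
          (mul_le_mul_of_nonneg_left (rpow_p_mono (mul_le_mul_of_nonneg_left
            (Nat.cast_le.2 (Nat.sub_le N i)) he.le)) hS) (pow_nonneg (T.mass_nonneg _ _) _))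
      refine (lin_step (by omega) hk hN (mul_nonneg hC0 (rpow_p_nonneg _))
        (mul_nonneg hS (rpow_p_nonneg _)) (ih (N - L) (by omega)) h1).mono ?_
      have e1 : (p : ℝ) ^ (e * N) = (p : ℝ) ^ (e * L) * (p : ℝ) ^ (e * ((N - L : ℕ) : ℝ)) := by
        rw [← rpow_p_add, ← mul_add, ← Nat.cast_add, Nat.add_sub_cancel' hN]
      have h2 : 2 * A * S ≤ C := hC ▸ le_max_right _ _
      rw [← hA, e1]
      nlinarith [mul_le_mul_of_nonneg_left hL.le
          (mul_nonneg hC0 (rpow_p_nonneg (p := p) (e * ((N - L : ℕ) : ℝ)))),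
        mul_le_mul_of_nonneg_right h2 (mul_nonneg (rpow_p_nonneg (p := p) (e * L))
          (rpow_p_nonneg (p := p) (e * ((N - L : ℕ) : ℝ))))]

/-- The degree one is orthogonality. -/
theorem lin_one (N : ℕ) : Lin p 1 N 1 := by
  intro X _ _ S
  have hp0 : p ≠ 0 := (Fact.out : p.Prime).ne_zero
  have horth : ∀ c ∈ range (p ^ N), ∀ c' ∈ range (p ^ N), c ≠ c' →
      ∑ x, (S.w x : ℂ) * S.F c x * starRingEnd ℂ (S.F c' x) = 0 := by
    intro c hc c' hc' hne
    rw [mem_range] at hc hc'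
    refine wave_orthogonal (S.mem c hc) (S.mem c' hc') S.norm_lam S.w_inv (y := fun _ => 1) ?_
    rintro ξ ⟨t, ht, rfl⟩ ξ' ⟨t', ht', rfl⟩ he
    simp only [Fin.sum_univ_one, mul_one, curve, one_mul] at he
    have h1 : ((p ^ N : ℕ) : ℤ) ∣ (S.γ 0).eval t - (S.γ 0).eval t' := by
      rw [← ec_eq_one_iff (pow_ne_zero _ hp0), sub_eq_add_neg, ec_add, he, ← ec_add, add_neg_cancel,
        ec_zero]
    obtain ⟨z, hz⟩ : (p : ℤ) * (t - t') ∣
        (S.γ 0).eval t - (S.γ 0).eval t' - (t - t') := by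
      have e : (S.γ 0).eval t - (S.γ 0).eval t' - (t - t') =
          ((S.γ 0) - Polynomial.X).eval t - ((S.γ 0) - Polynomial.X).eval t' := by
        simp only [Polynomial.eval_sub, Polynomial.eval_X]; ring
      rw [e, Polynomial.eval_eq_sum_range, Polynomial.eval_eq_sum_range, ← sum_sub_distrib]
      refine dvd_sum fun i _ => ?_
      rw [← mul_sub]
      rcases Nat.eq_zero_or_pos i with rfl | hi
      · simp
      refine mul_dvd_mul ?_ (sub_dvd_pow_sub_pow t t' i)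
      rw [← ZMod.intCast_zmod_eq_zero_iff_dvd, Polynomial.coeff_sub, Int.cast_sub,
        S.good 0 i hi.ne', Polynomial.coeff_X]
      by_cases h1i : i = 1
      · subst h1i; simp
      · simp [h1i, Ne.symm h1i]
    have h2 : (p : ℤ) ^ N ∣ (1 + p * z) * (t - t') := by
      rw [← Nat.cast_pow]
      convert h1 using 1
      linear_combination -hz
    have h3 : (p : ℤ) ^ N ∣ t - t' := by
      refine (Nat.prime_iff_prime_int.1 (Fact.out : p.Prime)).pow_dvd_of_dvd_mul_left _ ?_ h2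
      intro h
      have h' : (p : ℤ) ∣ 1 := by simpa using dvd_sub h (dvd_mul_right (p : ℤ) z)
      exact (Fact.out : p.Prime).ne_one (Nat.dvd_one.1 (by exact_mod_cast h'))
    have h4 : ((p ^ N : ℕ) : ℤ) ∣ (c' : ℤ) - c := by
      rw [Nat.cast_pow, show (c' : ℤ) - c = (t - c) - (t' - c') - (t - t') by ring]
      exact dvd_sub (dvd_sub ht ht') h3
    exact hne (Nat.ModEq.eq_of_lt_of_lt (Nat.modEq_iff_dvd.2 h4) hc hc')
  have hT : tri 1 = 1 := rfl
  rw [one_mul, DecSystem.mass, cls_zero, hT, pow_one]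
  simp only [DecSystem.normSq, hT, Nat.cast_one, inv_one, Real.rpow_one, mul_one]
  refine le_of_eq (Complex.ofReal_injective ?_)
  push_cast
  simp only [← Complex.mul_conj', DecSystem.piece, cls_zero, map_sum, sum_mul_sum]
  simp only [mul_sum]
  rw [sum_comm]
  refine sum_congr rfl fun c hc => ?_
  rw [sum_comm, sum_eq_single_of_mem c hc fun c' hc' hne => ?_]
  have := horth c hc c' hc' hne.symm
  simpa only [mul_assoc] using this

/-- **Decoupling for the moment curve at the critical exponent `k (k + 1)`**, over `p`-adic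
intervals: the constant grows more slowly than every power. -/
theorem growth_all : ∀ k, 1 ≤ k → k < p → ∀ ε : ℝ, 0 < ε → Growth p k ε := by
  intro k
  induction k using Nat.strong_induction_on with
  | _ k ih =>
    intro hk1 hk ε hε
    have hp1 : 1 ≤ p := (Fact.out : p.Prime).one_lt.le
    rcases eq_or_lt_of_le hk1 with rfl | hk2
    · exact Growth.mono hp1 (η := 0) ⟨1, zero_le_one, fun N => (lin_one N).mono (by simp)⟩ hε.le
    obtain ⟨E, hE⟩ : ∃ E : Set ℝ, E = {η | 0 ≤ η ∧ Growth p k η} := ⟨_, rfl⟩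
    have hne : E.Nonempty :=
      ⟨(2 * tri k : ℕ), by
        rw [hE]; exact ⟨Nat.cast_nonneg _, growth_trivial (Fact.out : p.Prime).pos hk1⟩⟩
    have hbdd : BddBelow E := ⟨0, fun x hx => by rw [hE] at hx; exact hx.1⟩
    have habove : ∀ η, sInf E < η → 0 ≤ η ∧ Growth p k η := fun η hη => by
      obtain ⟨x, hx, hlt⟩ := exists_lt_of_csInf_lt hne hη
      rw [hE] at hx
      exact ⟨hx.1.trans hlt.le, hx.2.mono hp1 hlt.le⟩
    suffices h : sInf E ≤ 0 from (habove ε (h.trans_lt hε)).2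
    by_contra hcon
    rw [not_le] at hcon
    obtain ⟨A, hA⟩ : ∃ A : ℝ, A = (((k + 1) * (2 * tri k + 1) : ℕ) : ℝ) + 1 := ⟨_, rfl⟩
    obtain ⟨n, hn⟩ := exists_nat_ge (A * k / sInf E)
    obtain ⟨τ, hτ⟩ : ∃ τ : ℝ, τ = 1 / (k ^ (n + 2) : ℕ) := ⟨_, rfl⟩
    have hτ0 : 0 < τ := hτ ▸ by positivity
    obtain ⟨hη0, hη⟩ := habove (sInf E + τ / 4) (by linarith)
    have hgain : A ≤ (sInf E + τ / 4) * ((n : ℝ) / k) := by
      refine le_trans ?_ (mul_le_mul_of_nonneg_right (le_add_of_nonneg_right (by positivity))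
        (by positivity))
      rw [div_le_iff₀ hcon] at hn
      rw [← mul_div_assoc, le_div_iff₀ (by positivity)]
      linarith
    obtain ⟨e, he⟩ : ∃ e, e = max (sInf E / 2) (sInf E - τ / 2) := ⟨_, rfl⟩
    have he0 : 0 < e := he ▸ lt_max_of_lt_left (half_pos hcon)
    have helt : e < sInf E := he ▸ max_lt (half_lt_self hcon) (by linarith)
    have himp : Growth p k e := growth_improve hk2 hk he0 fun L =>
      symBil_saving hk2 hk hη0 (ε := τ / 4) (by positivity)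
        (exists_step hk1 hk (fun l h1 h2 => ih l h2 h1 (h2.trans hk)) hη0 hη n)
        (hA ▸ hgain) he0.le (by rw [← hτ, he]; exact le_max_of_le_right (by linarith)) L
    exact (not_le.2 helt) (csInf_le hbdd (hE ▸ ⟨he0.le, himp⟩))

end FA.VMC
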