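import Mathlib.Algebra.Field.ZMod
import Mathlib.Algebra.Polynomial.Taylor
import Mathlib.LinearAlgebra.Matrix.Adjugate
import Mathlib.LinearAlgebra.Matrix.ToLinearEquiv

/-!
# Curves congruent to the moment curve

Polynomial curves congruent modulo `p` to `t ↦ (t, t ^ 2, …, t ^ k)` up to constants. The class is
stable under translations and dilations followed by linear maps, and contains the images of the
last coordinates of such curves at units.
-/

set_option autoImplicit false

noncomputable section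

namespace FA.VMC

open Finset Polynomial Matrix

variable {p k l : ℕ}

/-- A point of a curve. -/
def curve (γ : Fin k → ℤ[X]) (t : ℤ) : Fin k → ℤ := fun j => (γ j).eval t

/-- A curve congruent to the moment curve modulo `p`, up to constants. -/
def Good (p : ℕ) (γ : Fin k → ℤ[X]) : Prop :=
  ∀ (j : Fin k) (n : ℕ), n ≠ 0 → ((γ j).coeff n : ZMod p) = if n = j.1 + 1 then 1 else 0

/-- The `j`-th coordinate begins with its term of degree `j + 1`, below degree `k + 1`. -/
def Adapted (γ : Fin k → ℤ[X]) : Prop :=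
  ∀ (j : Fin k) (n : ℕ), n ≤ k → n ≠ j.1 + 1 → (γ j).coeff n = 0

/-- The first Taylor coefficients. -/
def frame (η : Fin l → ℤ[X]) (c : ℤ) : Matrix (Fin l) (Fin l) ℤ :=
  .of fun r i => (taylor c (η r)).coeff (i.1 + 1)

/-- The moment curve. -/
def moment (k : ℕ) : Fin k → ℤ[X] := fun j => X ^ (j.1 + 1)

theorem good_moment : Good p (moment k) := fun j n _ => by
  rw [moment, coeff_X_pow]; split <;> simp

theorem curve_moment (t : ℤ) (j : Fin k) : curve (moment k) t j = t ^ (j.1 + 1) := by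
  simp [curve, moment]

variable [Fact p.Prime]

/-- Taylor coefficients of a polynomial congruent to a monomial up to a constant. -/
theorem taylor_coeff_eq {f : ℤ[X]} {d : ℕ}
    (hf : ∀ n, n ≠ 0 → (f.coeff n : ZMod p) = if n = d then 1 else 0) (u : ℤ) (n : ℕ) :
    (((taylor u f).coeff (n + 1) : ℤ) : ZMod p) =
      (taylor (u : ZMod p) ((X : (ZMod p)[X]) ^ d)).coeff (n + 1) := by
  have e : f.map (Int.castRingHom (ZMod p)) =
      X ^ d + C ((f.coeff 0 : ZMod p) - if d = 0 then 1 else 0) := by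
    ext m
    rw [coeff_map, coeff_add, coeff_X_pow, coeff_C]
    rcases Nat.eq_zero_or_pos m with rfl | hm
    · simp [eq_comm]
    · rw [if_neg hm.ne', add_zero]
      exact hf m hm.ne'
  have h : (taylor u f).map (Int.castRingHom (ZMod p)) =
      taylor (u : ZMod p) (f.map (Int.castRingHom (ZMod p))) := by
    simp [taylor_apply, Polynomial.map_comp]
  rw [show (((taylor u f).coeff (n + 1) : ℤ) : ZMod p) =
    ((taylor u f).map (Int.castRingHom (ZMod p))).coeff (n + 1) by rw [coeff_map]; rfl, h, e,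
    map_add, taylor_C, coeff_add, coeff_C, if_neg (Nat.succ_ne_zero n), add_zero]

/-- The frame of monomials of degrees `a, a + 1, …` is invertible at units, and at every point if
`a = 1`. -/
theorem frame_det_ne_zero {η : Fin l → ℤ[X]} {a : ℕ} {u : ℤ}
    (hη : ∀ (r : Fin l) (n : ℕ), n ≠ 0 →
      ((η r).coeff n : ZMod p) = if n = a + r.1 then 1 else 0)
    (ha : 1 ≤ a) (hap : a + l ≤ p) (hu : a = 1 ∨ (u : ZMod p) ≠ 0) :
    ((frame η u).det : ZMod p) ≠ 0 := by
  rw [Int.cast_det]
  intro h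
  obtain ⟨v, hv, hvA⟩ := Matrix.exists_vecMul_eq_zero_iff.2 h
  obtain ⟨g, hg⟩ : ∃ g : (ZMod p)[X],
      g = ∑ r : Fin l, C (v r * ((a + r.1 : ℕ) : ZMod p)) * X ^ r.1 := ⟨_, rfl⟩
  obtain ⟨f, hf⟩ : ∃ f : (ZMod p)[X], f = ∑ r : Fin l, C (v r) * X ^ (a + r.1) := ⟨_, rfl⟩
  have hder : derivative f = X ^ (a - 1) * g := by
    rw [hf, hg, derivative_sum, mul_sum]
    refine sum_congr rfl fun r _ => ?_
    rw [derivative_C_mul, derivative_X_pow, C_mul, show a + r.1 - 1 = a - 1 + r.1 by omega,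
      pow_add]
    ring
  have hcoeff : ∀ i < l, (taylor (u : ZMod p) f).coeff (i + 1) = 0 := fun i hi => by
    have h' := congrFun hvA ⟨i, hi⟩
    simp only [Matrix.vecMul, dotProduct, Matrix.map_apply, Pi.zero_apply, frame, Matrix.of_apply]
      at h'
    rw [hf, map_sum, finsetSum_coeff, ← h']
    refine sum_congr rfl fun r _ => ?_
    rw [taylor_mul, taylor_C, coeff_C_mul, ← taylor_coeff_eq (hη r) u i]
  have hdvd : (X : (ZMod p)[X]) ^ l ∣
      (X + C (u : ZMod p)) ^ (a - 1) * taylor (u : ZMod p) g := by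
    rw [show (X + C (u : ZMod p)) ^ (a - 1) * taylor (u : ZMod p) g =
      derivative (taylor (u : ZMod p) f) from ?_, X_pow_dvd_iff]
    · intro i hi
      rw [coeff_derivative, hcoeff i hi, zero_mul]
    · rw [← taylor_X_pow, ← taylor_mul, ← hder, taylor_apply, taylor_apply, derivative_comp,
        derivative_add, derivative_X, derivative_C, add_zero, one_mul]
  have hnot : ¬(X : (ZMod p)[X]) ∣ (X + C (u : ZMod p)) ^ (a - 1) := by
    rw [X_dvd_iff, coeff_zero_eq_eval_zero, eval_pow, eval_add, eval_X, eval_C, zero_add]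
    rcases hu with rfl | hu
    · simp
    · exact pow_ne_zero _ hu
  have hgdeg : g = 0 ∨ g.natDegree < l := by
    rcases Nat.eq_zero_or_pos l with hl | hl
    · subst hl; simp [hg]
    · refine Or.inr (lt_of_le_of_lt (hg ▸ natDegree_sum_le_of_forall_le _ _ (n := l - 1)
        fun r _ => (natDegree_C_mul_X_pow_le _ _).trans (by omega)) (by omega))
  have hg0 : g = 0 := by
    refine hgdeg.elim id fun hlt => ?_
    refine (taylor_eq_zero (u : ZMod p) g).1 (eq_zero_of_dvd_of_natDegree_lt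
      (prime_X.pow_dvd_of_dvd_mul_left _ hnot hdvd) ?_)
    rwa [natDegree_taylor, natDegree_X_pow]
  refine hv (funext fun r => ?_)
  have h' := congrArg (fun q : (ZMod p)[X] => q.coeff r.1) hg0
  simp only [hg, finsetSum_coeff, coeff_C_mul, coeff_X_pow, coeff_zero, mul_ite, mul_one,
    mul_zero] at h'
  rw [sum_eq_single_of_mem r (mem_univ _) fun r' _ hr' => if_neg fun e => hr' (Fin.ext e.symm),
    if_pos rfl] at h'
  refine (mul_eq_zero.1 h').resolve_right fun h0 => ?_
  rw [ZMod.natCast_eq_zero_iff] at h0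
  exact absurd (Nat.le_of_dvd (by omega) h0) (by omega)

/-- Translation to `c`, dilation by `p ^ m` and a linear map give a good adapted curve. -/
theorem exists_rescale {η : Fin l → ℤ[X]} {c : ℤ} (hdet : ((frame η c).det : ZMod p) ≠ 0) (m : ℕ)
    (hm : 1 ≤ m ∨ ∀ (r : Fin l) (n : ℕ), l < n →
      (((taylor c (η r)).coeff n : ℤ) : ZMod p) = 0) :
    ∃ (T : Matrix (Fin l) (Fin l) ℤ) (γ : Fin l → ℤ[X]) (κ : Fin l → ℤ),
      Good p γ ∧ Adapted γ ∧
      ∀ (v : ℤ) (j : Fin l),
        ∑ r, T j r * (η r).eval (c + (p : ℤ) ^ m * v) =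
          κ j + (p : ℤ) ^ ((j.1 + 1) * m) * (γ j).eval v := by
  obtain ⟨e, he⟩ : ∃ e : ℤ, (e : ZMod p) * (frame η c).det = 1 :=
    ⟨(((frame η c).det : ZMod p))⁻¹.val, by
      rw [Int.cast_natCast, ZMod.natCast_zmod_val, inv_mul_cancel₀ hdet]⟩
  obtain ⟨T, hT⟩ : ∃ T, T = e • (frame η c).adjugate := ⟨_, rfl⟩
  obtain ⟨P, hP⟩ : ∃ P : Fin l → ℤ[X], P = fun j => ∑ r, C (T j r) * taylor c (η r) := ⟨_, rfl⟩
  have hlow : ∀ (j : Fin l) (n : ℕ), n ≠ 0 → n ≤ l →
      (P j).coeff n = if n = j.1 + 1 then e * (frame η c).det else 0 := fun j n h0 hn => by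
    obtain ⟨i, rfl⟩ : ∃ i, n = i + 1 := ⟨n - 1, by omega⟩
    have h : (T * frame η c) j ⟨i, by omega⟩ = if i + 1 = j.1 + 1 then
        e * (frame η c).det else 0 := by
      rw [hT, Matrix.smul_mul, Matrix.adjugate_mul, Matrix.smul_apply, Matrix.smul_apply,
        Matrix.one_apply]
      simp [Fin.ext_iff, eq_comm]
    simp only [hP, finsetSum_coeff, coeff_C_mul]
    rw [← h, Matrix.mul_apply]
    rfl
  obtain ⟨γ, hγ⟩ : ∃ γ : Fin l → ℤ[X], γ = fun j => ∑ n ∈ range ((P j).natDegree + 1),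
      C (if n = 0 then 0 else (P j).coeff n * (p : ℤ) ^ ((n - (j.1 + 1)) * m)) * X ^ n :=
    ⟨_, rfl⟩
  have hγc : ∀ (j : Fin l) (n : ℕ), (γ j).coeff n =
      if n = 0 then 0 else (P j).coeff n * (p : ℤ) ^ ((n - (j.1 + 1)) * m) := fun j n => by
    simp only [hγ, finsetSum_coeff, coeff_C_mul, coeff_X_pow, mul_ite, mul_one, mul_zero,
      sum_ite_eq, mem_range]
    split
    · rfl
    · rw [coeff_eq_zero_of_natDegree_lt (p := P j) (by omega)]
      simp
  refine ⟨T, γ, fun j => (P j).coeff 0, fun j n hn => ?_, fun j n hn hne => ?_, fun v j => ?_⟩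
  · rw [hγc, if_neg hn]
    rcases le_or_gt n l with hnl | hnl
    · rw [hlow j n hn hnl]
      split
      · subst n; simpa using he
      · simp
    · rw [if_neg (by omega)]
      rcases hm with hm | hm
      · rw [Int.cast_mul, Int.cast_pow, Int.cast_natCast, ZMod.natCast_self,
          zero_pow (Nat.mul_pos (by omega) (by omega) : 0 < (n - (j.1 + 1)) * m).ne', mul_zero]
      · simp only [hP, finsetSum_coeff, coeff_C_mul, Int.cast_mul, Int.cast_sum]
        rw [sum_eq_zero fun r _ => by rw [hm r n hnl, mul_zero], zero_mul]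
  · rw [hγc]
    split
    · rfl
    · rename_i h0
      rw [hlow j n h0 hn, if_neg hne, zero_mul]
  · have hl : ∑ r, T j r * (η r).eval (c + (p : ℤ) ^ m * v) = (P j).eval ((p : ℤ) ^ m * v) := by
      simp only [hP, eval_finsetSum, eval_mul, eval_C, taylor_eval, add_comm c]
    rw [hl, eval_eq_sum_range]
    simp only [hγ, eval_finsetSum, eval_mul, eval_C, eval_pow, eval_X, mul_sum]
    rw [sum_range_succ', sum_range_succ']
    simp only [Nat.succ_ne_zero, if_false, if_true, pow_zero, mul_one, mul_zero, add_zero]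
    rw [add_comm]
    refine congrArg₂ (· + ·) rfl (sum_congr rfl fun n _ => ?_)
    rcases lt_or_ge (n + 1) (j.1 + 1) with h | h
    · rw [hlow j (n + 1) (by omega) (by omega), if_neg (by omega)]
      ring
    · rw [mul_pow, ← pow_mul]
      obtain ⟨d, hd⟩ := Nat.exists_eq_add_of_le h
      rw [hd, Nat.add_sub_cancel_left, mul_comm m]
      ring

/-- Good curves have invertible frames everywhere. -/
theorem Good.det_ne_zero {γ : Fin k → ℤ[X]} (hγ : Good p γ) (hk : k < p) (c : ℤ) :
    ((frame γ c).det : ZMod p) ≠ 0 :=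
  frame_det_ne_zero (a := 1) (fun r n hn => by rw [hγ r n hn, add_comm]) le_rfl (by omega)
    (Or.inl rfl)

/-- Translations of good curves. -/
theorem Good.translate {γ : Fin k → ℤ[X]} (hγ : Good p γ) (hk : k < p) (c : ℤ) :
    ∃ (T : Matrix (Fin k) (Fin k) ℤ) (γ' : Fin k → ℤ[X]) (κ : Fin k → ℤ),
      Good p γ' ∧ Adapted γ' ∧
      ∀ (t : ℤ) (j : Fin k), ∑ r, T j r * curve γ t r = κ j + curve γ' (t - c) j := by
  obtain ⟨T, γ', κ, h1, h2, h3⟩ := exists_rescale (hγ.det_ne_zero hk c) 0 (Or.inr fun r n hn => by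
    obtain ⟨n, rfl⟩ : ∃ i, n = i + 1 := ⟨n - 1, by omega⟩
    rw [taylor_coeff_eq (hγ r) c n]
    refine coeff_eq_zero_of_natDegree_lt ?_
    rw [natDegree_taylor, natDegree_X_pow]
    omega)
  refine ⟨T, γ', κ, h1, h2, fun t j => ?_⟩
  have := h3 (t - c) j
  simpa [curve] using this

omit [Fact p.Prime] in
/-- In adapted coordinates the points near the centre are divisible by growing powers of `p`. -/
theorem Adapted.dvd_eval {γ : Fin k → ℤ[X]} (hγ : Adapted γ) (b : ℕ) (v : ℤ) (j : Fin k) :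
    (p : ℤ) ^ ((j.1 + 1) * b) ∣ (γ j).eval ((p : ℤ) ^ b * v) := by
  rw [eval_eq_sum_range]
  refine dvd_sum fun n _ => ?_
  rcases lt_or_ge n (j.1 + 1) with h | h
  · rw [hγ j n (by omega) (by omega), zero_mul]
    exact dvd_zero _
  · rw [mul_pow, ← pow_mul]
    refine ((pow_dvd_pow _ ?_).mul_right _).mul_left _
    exact (mul_comm _ b).trans_le (Nat.mul_le_mul_left b h)

end FA.VMC
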