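import Fermat.Agent.VinogradovMainConjecture.Setting
import Mathlib.Algebra.Order.Chebyshev

/-!
# Relations between the decoupling constants

The exchange of the two exponents by Hölder's inequality, the lowering of the degree on the
translations under which the shorter piece has constant absolute value (Guo, Li, Yung,
Zorin-Kranich), and the passage from bilinear to linear bounds.
-/

set_option autoImplicit false

noncomputable section

namespace FA.VMC

open Finset

variable {p k N l : ℕ} {X : Type} [Fintype X] [AddCommGroup X]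

/-- Bilinear decoupling with equal exponents, at levels at most `L`. -/
def SymBil (p k N L : ℕ) (K : ℝ) : Prop :=
  ∀ (X : Type) [Fintype X] [AddCommGroup X] (S : DecSystem p k N X) (a r r' : ℕ), 1 ≤ a → a ≤ L →
    a ≤ N →
    r % p ≠ r' % p →
      ∑ x, S.w x * (‖S.piece a r x‖ * ‖S.piece a r' x‖) ^ tri k ≤ K * S.mass 0 0 ^ tri k

theorem rep_mod {a j r : ℕ} (ha : 1 ≤ a) : (r % p ^ a + p ^ a * j) % p = r % p := by
  obtain ⟨q, hq⟩ : p ∣ p ^ a := dvd_pow_self p (by omega)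
  rw [Nat.add_mod, Nat.mod_mod_of_dvd _ ⟨q, hq⟩, hq, mul_assoc, Nat.mul_mod_right, add_zero,
    Nat.mod_mod]

theorem DecSystem.piece_congr (S : DecSystem p k N X) {a r r' : ℕ}
    (h : r % p ^ a = r' % p ^ a) : S.piece a r = S.piece a r' := by
  funext x; simp only [DecSystem.piece, cls, h]

theorem DecSystem.mass_congr (S : DecSystem p k N X) {a r r' : ℕ}
    (h : r % p ^ a = r' % p ^ a) : S.mass a r = S.mass a r' := by
  simp only [DecSystem.mass, cls, h]

theorem Lin.mono {K K' : ℝ} (h : Lin p k N K) (hK : K ≤ K') : Lin p k N K' :=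
  fun X _ _ S => (h X S).trans
    (mul_le_mul_of_nonneg_right hK (pow_nonneg (S.mass_nonneg 0 0) _))

/-- Hölder with the trivial bound. -/
theorem lin_trivial (hp : 0 < p) (hk : 1 ≤ k) :
    Lin p k N (((p : ℝ) ^ N) ^ (2 * tri k)) := by
  intro X _ _ S
  have h1 : ∀ c, ∑ x, S.w x * ‖S.F c x‖ ^ (2 * tri k) = S.normSq c ^ tri k := fun c => by
    rw [DecSystem.normSq, Real.rpow_inv_natCast_pow
      (sum_nonneg fun x _ => mul_nonneg (S.w_nonneg x) (by positivity)) (tri_pos hk).ne']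
  have hR := tri_pos hk
  obtain ⟨n, hn⟩ : ∃ n, 2 * tri k = n + 1 := ⟨2 * tri k - 1, by omega⟩
  calc ∑ x, S.w x * ‖S.piece 0 0 x‖ ^ (2 * tri k)
      ≤ ∑ x, S.w x * (((p : ℝ) ^ N) ^ n * ∑ c ∈ range (p ^ N), ‖S.F c x‖ ^ (2 * tri k)) := by
        refine sum_le_sum fun x _ => mul_le_mul_of_nonneg_left ?_ (S.w_nonneg x)
        rw [DecSystem.piece, cls_zero, hn]
        refine (pow_le_pow_left₀ (norm_nonneg _) (norm_sum_le _ _) _).trans ?_
        refine (pow_sum_le_card_mul_sum_pow (fun c _ => norm_nonneg _) n).trans_eq ?_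
        simp [Nat.cast_pow]
    _ = ((p : ℝ) ^ N) ^ n * ∑ c ∈ range (p ^ N), S.normSq c ^ tri k := by
        simp only [← h1, mul_sum]
        rw [sum_comm]
        exact sum_congr rfl fun _ _ => sum_congr rfl fun _ _ => by ring
    _ ≤ ((p : ℝ) ^ N) ^ n * ∑ _c ∈ range (p ^ N), S.mass 0 0 ^ tri k := by
        refine mul_le_mul_of_nonneg_left (sum_le_sum fun c hc => pow_le_pow_left₀
          (S.normSq_nonneg c) ?_ _) (by positivity)
        rw [DecSystem.mass, cls_zero]
        exact single_le_sum (fun i _ => S.normSq_nonneg i) hc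
    _ = _ := by
        rw [sum_const, card_range, nsmul_eq_mul, hn, pow_succ]
        push_cast
        ring

variable [Fact p.Prime]

/-- The system of a class. -/
theorem exists_child (S : DecSystem p k N X) (hk : k < p) {i : ℕ} (hi1 : 1 ≤ i) (hi : i ≤ N)
    (r : ℕ) :
    ∃ S' : DecSystem p k (N - i) X, S'.w = S.w ∧ ∀ a q, i + a ≤ N →
      S'.piece a q = S.piece (i + a) (r % p ^ i + p ^ i * q) ∧
      S'.mass a q = S.mass (i + a) (r % p ^ i + p ^ i * q) := by
  have hp : 0 < p := (Fact.out : p.Prime).pos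
  obtain ⟨S', hw, hF⟩ := exists_system (m := i) (n := N - i) (c := ((r % p ^ i : ℕ) : ℤ))
    (S.good.det_ne_zero hk _) hi1 S.norm_lam S.w_nonneg S.w_inv
    (G := fun j => S.F (r % p ^ i + p ^ i * j)) fun j hj => by
      rw [Nat.add_sub_cancel' hi]
      convert S.mem (r % p ^ i + p ^ i * j) (rep_lt hp hi hj) using 3
      push_cast
      ring
  have key : ∀ (M : Type) [AddCommMonoid M] (f : ℕ → M) (a q : ℕ), i + a ≤ N →
      ∑ c ∈ cls p (N - i) a q, f (r % p ^ i + p ^ i * c) =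
        ∑ c ∈ cls p N (i + a) (r % p ^ i + p ^ i * q), f c := by
    intro M _ f a q h
    rw [sum_cls_split hp (show a ≤ N - i by omega) q,
      sum_cls_split hp h (r % p ^ i + p ^ i * q)]
    rw [show N - i - a = N - (i + a) by omega]
    refine sum_congr rfl fun j hj => ?_
    rw [mem_range] at hj
    have e : (r % p ^ i + p ^ i * q) % p ^ (i + a) = r % p ^ i + p ^ i * (q % p ^ a) := by
      rw [pow_add, Nat.mod_mul, Nat.add_mul_mod_self_left, Nat.mod_mod,
        Nat.add_mul_div_left _ _ (pow_pos hp i), Nat.div_eq_of_lt (Nat.mod_lt _ (pow_pos hp i)),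
        zero_add]
    have hsmall : q % p ^ a + p ^ a * j < p ^ (N - i) :=
      rep_lt hp (by omega) (by rwa [show N - i - a = N - (i + a) by omega])
    rw [cls_top hsmall, sum_singleton, cls_top (rep_lt hp h hj), sum_singleton, e, pow_add,
      mul_add, mul_assoc, add_assoc]
  refine ⟨S', hw, fun a q h => ⟨?_, ?_⟩⟩
  · funext x
    simp only [DecSystem.piece, hF]
    exact key ℂ (fun c => S.F c x) a q h
  · simp only [DecSystem.mass, DecSystem.normSq, hF, hw]
    exact key ℝ (fun c => S.normSq c) a q h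

/-- Decoupling inside a class. -/
theorem Lin.piece_le {a : ℕ} {K : ℝ} (h : Lin p k (N - a) K) (hk : k < p) (ha : a ≤ N)
    (S : DecSystem p k N X) (r : ℕ) :
    ∑ x, S.w x * ‖S.piece a r x‖ ^ (2 * tri k) ≤ K * S.mass a r ^ tri k := by
  rcases Nat.eq_zero_or_pos a with rfl | ha0
  · rw [S.piece_congr (r' := 0) (by simp [Nat.mod_one]),
      S.mass_congr (r' := 0) (by simp [Nat.mod_one])]
    exact h X S
  · obtain ⟨S', hw, h'⟩ := exists_child S hk ha0 ha r
    obtain ⟨h1, h2⟩ := h' 0 0 (by simpa using ha)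
    have := h X S'
    rw [hw, h1, h2, add_zero, mul_zero, add_zero] at this
    rwa [S.piece_congr (r' := r % p ^ a) (by rw [Nat.mod_mod]),
      S.mass_congr (r' := r % p ^ a) (by rw [Nat.mod_mod])]

omit [Fact p.Prime] in
theorem le_of_pow_le {A B : ℝ} {n : ℕ} (hn : n ≠ 0) (hB : 0 ≤ B) (h : A ^ n ≤ B ^ n) : A ≤ B :=
  le_of_pow_le_pow_left₀ hn hB h

/-- The exponent zero. -/
theorem bil_zero {a b : ℕ} {K : ℝ} (hb : b ≤ N) (hk : k < p) (h : Lin p k (N - b) K) :
    Bil p k N 0 a b K := by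
  intro X _ _ S r r' _
  simpa [tri] using h.piece_le hk hb S r'

/-- Hölder's inequality gives the linear bound for every bilinear quantity. -/
theorem bil_trivial {a b : ℕ} {K : ℝ} (hl : l ≤ k) (hk1 : 1 ≤ k) (hk : k < p) (ha : a ≤ N)
    (hb : b ≤ N) (hK : 0 ≤ K) (h1 : Lin p k (N - a) K) (h2 : Lin p k (N - b) K) :
    Bil p k N l a b K := by
  intro X _ _ S r r' _
  have hle : tri l ≤ tri k := tri_mono hl
  have hpos := tri_pos hk1
  refine le_of_pow_le hpos.ne'
    (mul_nonneg hK (mul_nonneg (pow_nonneg (S.mass_nonneg _ _) _)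
      (pow_nonneg (S.mass_nonneg _ _) _))) ?_
  refine (holder_pow (univ : Finset X) (Y := fun x => ‖S.piece a r x‖ ^ (2 * tri k))
    (Z := fun x => ‖S.piece b r' x‖ ^ (2 * tri k)) hle hpos S.w_nonneg
    (fun x => by positivity) (fun x => by positivity) (fun x => by positivity) fun x => ?_).trans ?_
  · rw [mul_pow, ← pow_mul, ← pow_mul, ← pow_mul, ← pow_mul]
    congr 2 <;> ring
  · refine (mul_le_mul (pow_le_pow_left₀ (sum_nonneg fun x _ => mul_nonneg (S.w_nonneg x)
      (by positivity)) (h1.piece_le hk ha S r) _) (pow_le_pow_left₀ (sum_nonneg fun x _ =>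
      mul_nonneg (S.w_nonneg x) (by positivity)) (h2.piece_le hk hb S r') _)
      (pow_nonneg (sum_nonneg fun x _ => mul_nonneg (S.w_nonneg x) (by positivity)) _)
      (pow_nonneg (mul_nonneg hK (pow_nonneg (S.mass_nonneg _ _) _)) _)).trans_eq ?_
    rw [mul_pow, mul_pow, mul_pow, mul_pow, ← pow_mul, ← pow_mul, ← pow_mul, ← pow_mul,
      mul_mul_mul_comm, ← pow_add, Nat.add_sub_cancel' hle]
    congr 2 <;> ring

omit [Fact p.Prime] in
/-- Exchange of the exponents. -/
theorem bil_exchange {a b : ℕ} {K₁ K₂ K : ℝ} (hl1 : 1 ≤ l) (hl : l < k) (hK : 0 ≤ K)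
    (h1 : Bil p k N (k - l) b a K₁) (h2 : Bil p k N (l - 1) a b K₂) (hK₁ : 0 ≤ K₁)
    (hle : K₁ * K₂ ^ (k - l) ≤ K ^ (k - l + 1)) :
    Bil p k N l a b K := by
  intro X _ _ S r r' hne
  obtain ⟨n, hn⟩ : ∃ n, n = k - l + 1 := ⟨_, rfl⟩
  have hl' : tri l ≤ tri k := tri_mono hl.le
  have hl'' : tri (k - l) ≤ tri k := tri_mono (Nat.sub_le _ _)
  have hl''' : tri (l - 1) ≤ tri l := tri_mono (Nat.sub_le _ _)
  have e1 : tri k - tri (k - l) + (k - l) * tri (l - 1) = n * tri l := by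
    obtain ⟨i, rfl⟩ : ∃ i, l = i + 1 := ⟨l - 1, by omega⟩
    obtain ⟨m, rfl⟩ : ∃ m, k = i + 1 + m := ⟨k - (i + 1), by omega⟩
    rw [Nat.add_sub_cancel_left, Nat.add_sub_cancel] at *
    have a1 := two_mul_tri (i + 1 + m)
    have a2 := two_mul_tri m
    have a3 := two_mul_tri i
    have a4 := two_mul_tri (i + 1)
    zify [hl''] at a1 a2 a3 a4 ⊢
    subst hn
    push_cast
    have : 2 * ((tri (i + 1 + m) : ℤ) - tri m + m * tri i) = 2 * ((m + 1) * tri (i + 1)) := by
      linear_combination a1 - a2 + (m : ℤ) * a3 - (m + 1 : ℤ) * a4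
    linarith
  have e2 : tri (k - l) + (k - l) * (tri k - tri (l - 1)) = n * (tri k - tri l) := by
    zify [hl', hl'', hl'''.trans hl'] at e1 ⊢
    subst hn
    push_cast at e1 ⊢
    linear_combination -e1
  refine le_of_pow_le (n := n) (by omega)
    (mul_nonneg hK (mul_nonneg (pow_nonneg (S.mass_nonneg _ _) _)
      (pow_nonneg (S.mass_nonneg _ _) _))) ?_
  refine (holder_pow (univ : Finset X) (i := 1)
    (Y := fun x => ‖S.piece b r' x‖ ^ (2 * tri (k - l)) *
      ‖S.piece a r x‖ ^ (2 * (tri k - tri (k - l))))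
    (Z := fun x => ‖S.piece a r x‖ ^ (2 * tri (l - 1)) *
      ‖S.piece b r' x‖ ^ (2 * (tri k - tri (l - 1))))
    (by omega) (by omega) S.w_nonneg (fun x => by positivity) (fun x => by positivity)
    (fun x => by positivity) fun x => ?_).trans ?_
  · rw [pow_one, mul_pow, mul_pow, ← pow_mul, ← pow_mul, ← pow_mul, ← pow_mul,
      show n - 1 = k - l by omega, mul_mul_mul_comm, mul_comm (‖S.piece b r' x‖ ^ _),
      mul_assoc 2 (tri l), mul_assoc 2 (tri k - tri l), mul_comm (tri l), mul_comm (tri k - tri l),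
      ← e1, ← e2]
    ring
  · rw [pow_one, show n - 1 = k - l by omega]
    have hz : 0 ≤ ∑ x, S.w x * (‖S.piece a r x‖ ^ (2 * tri (l - 1)) *
        ‖S.piece b r' x‖ ^ (2 * (tri k - tri (l - 1)))) :=
      sum_nonneg fun x _ => mul_nonneg (S.w_nonneg x) (by positivity)
    have hm1 := S.mass_nonneg a r
    have hm2 := S.mass_nonneg b r'
    refine (mul_le_mul (h1 X S r' r hne.symm) (pow_le_pow_left₀ hz (h2 X S r r' hne) _)
      (pow_nonneg hz _) (by positivity)).trans ?_
    rw [← hn] at hle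
    rw [mul_pow, mul_pow K, mul_mul_mul_comm]
    refine mul_le_mul hle (le_of_eq ?_) (by positivity) (pow_nonneg hK _)
    rw [mul_pow, mul_pow, ← pow_mul, ← pow_mul, ← pow_mul, ← pow_mul, mul_mul_mul_comm,
      mul_comm (S.mass b r' ^ _), mul_comm (tri (l - 1)), mul_comm (tri k - tri (l - 1)),
      mul_comm (tri l), mul_comm (tri k - tri l), ← e1, ← e2]
    ring

/-- Lowering the degree: `a` may be raised to `(k - l + 1) b / l`. -/
theorem bil_lower {a a' b : ℕ} {K₁ K : ℝ} (hl1 : 1 ≤ l) (hl : l < k) (hk : k < p) (ha1 : 1 ≤ a)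
    (haa : a ≤ a') (ha' : a' ≤ N) (hb : b ≤ N) (hab : l * a' = (k - l + 1) * b) (hK₁ : 0 ≤ K₁)
    (hK : 0 ≤ K) (hlin : Lin p l (a' - a) K₁) (h : Bil p k N l a' b K) :
    Bil p k N l a b (K₁ * K) := by
  intro X _ _ S r r' hne
  have hp0 : 0 < p := (Fact.out : p.Prime).pos
  obtain ⟨T, γ', κ, hgood, had, hT⟩ := S.good.translate hk (r' : ℤ)
  obtain ⟨ix, hix⟩ : ∃ ix : Fin l → Fin k, ix = fun j => ⟨k - l + j.1, by omega⟩ := ⟨_, rfl⟩
  have hixv : ∀ j, (ix j).1 = k - l + j.1 := fun j => by rw [hix]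
  obtain ⟨E, hE⟩ : ∃ E, E = k * N - l * a' := ⟨_, rfl⟩
  have hLN : l * a' ≤ k * N := Nat.mul_le_mul hl.le ha'
  let g : (Fin l → ℤ) →+ (Fin k → ℤ) :=
    AddMonoidHom.mk' (fun y i => ∑ j, T (ix j) i * ((p : ℤ) ^ E * y j))
      fun y y' => funext fun i => by simp only [Pi.add_apply, mul_add, sum_add_distrib]
  obtain ⟨lam', hlam'⟩ : ∃ lam' : (Fin l → ℤ) → ℂ, lam' = fun y => S.lam (g y) *
      ec (p ^ (k * N)) (∑ j, κ (ix j) * ((p : ℤ) ^ E * y j)) := ⟨_, rfl⟩
  obtain ⟨η, hη⟩ : ∃ η : Fin l → Polynomial ℤ, η = fun j => γ' (ix j) := ⟨_, rfl⟩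
  -- the frequencies on the translations by `g`
  have hmap : ∀ (L : ℕ) (c : ℤ), wave S.ι S.lam (p ^ (k * N)) (pts p S.γ L c) ≤
      wave (S.ι.comp g) lam' (p ^ (l * a')) (pts p η L (c - r')) := fun L c => by
    refine wave_comp ?_
    rintro ξ ⟨t, ht, rfl⟩
    refine ⟨curve η (t - r'), ⟨t - r', by rwa [show t - r' - (c - r') = t - c by ring], rfl⟩,
      fun y => ?_⟩
    have e : ∑ i, curve S.γ t i * g y i = ∑ j, κ (ix j) * ((p : ℤ) ^ E * y j) +
        (p : ℤ) ^ E * ∑ j, curve η (t - r') j * y j := by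
      simp only [g, AddMonoidHom.mk'_apply, mul_sum]
      rw [sum_comm, ← sum_add_distrib]
      refine sum_congr rfl fun j _ => ?_
      calc ∑ i, curve S.γ t i * (T (ix j) i * ((p : ℤ) ^ E * y j))
          = (∑ i, T (ix j) i * curve S.γ t i) * ((p : ℤ) ^ E * y j) := by
            rw [sum_mul]; exact sum_congr rfl fun i _ => by ring
        _ = _ := by rw [hT, hη]; simp only [curve]; ring
    rw [hlam', e, ec_add, ← mul_assoc]
    congr 1
    rw [show p ^ (k * N) = p ^ E * p ^ (l * a') by rw [← pow_add, hE, Nat.sub_add_cancel hLN],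
      ← Nat.cast_pow, ec_mul_eq _ (pow_ne_zero _ hp0.ne')]
  have hnorm : ∀ y, ‖lam' y‖ = 1 := fun y => by
    rw [hlam', norm_mul, S.norm_lam, norm_ec, one_mul]
  -- the shorter piece has constant absolute value
  have hconst : ∀ ξ ∈ pts p η b 0, ∀ y : Fin l → ℤ,
      ec (p ^ (l * a')) (∑ j, ξ j * y j) = 1 := by
    rintro ξ ⟨t, ⟨v, hv⟩, rfl⟩ y
    rw [ec_eq_one_iff (pow_ne_zero _ hp0.ne'), Nat.cast_pow]
    refine dvd_sum fun j _ => Dvd.dvd.mul_right ?_ _
    rw [sub_zero] at hv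
    have h1 := had.dvd_eval (p := p) b v (ix j)
    rw [← hv] at h1
    simp only [hη, curve]
    exact (pow_dvd_pow _ (by rw [hab, hixv]; exact Nat.mul_le_mul_right b (by omega))).trans h1
  obtain ⟨q, hq⟩ : ∃ q, q = tri k - tri l := ⟨_, rfl⟩
  obtain ⟨w', hw'⟩ : ∃ w' : X → ℝ, w' = fun x => S.w x * ‖S.piece b r' x‖ ^ (2 * q) := ⟨_, rfl⟩
  have hmemb : S.piece b r' ∈ wave (S.ι.comp g) lam' (p ^ (l * a')) (pts p η b 0) := by
    have := hmap b r' (S.piece_mem hb r')
    rwa [sub_self] at this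
  have hinv : ∀ x y, w' (x + S.ι.comp g y) = w' x := fun x y => by
    simp only [hw']
    rw [norm_wave_translate hmemb hnorm
      (fun ξ hξ ξ' hξ' => by rw [hconst ξ hξ, hconst ξ' hξ']), AddMonoidHom.comp_apply, S.w_inv]
  obtain ⟨c₀, hc₀⟩ : ∃ c₀ : ℤ, c₀ = ((r % p ^ a : ℕ) : ℤ) - r' := ⟨_, rfl⟩
  have hdet : ((frame η c₀).det : ZMod p) ≠ 0 := by
    refine frame_det_ne_zero (a := k - l + 1) (fun j n hn => ?_) (by omega) (by omega) (Or.inr ?_)
    · simp only [hη]
      rw [hgood (ix j) n hn, hixv, show k - l + j.1 + 1 = k - l + 1 + j.1 by omega]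
    · rw [hc₀, Int.cast_sub, Int.cast_natCast, Int.cast_natCast, sub_ne_zero, Ne,
        ZMod.natCast_eq_natCast_iff']
      rwa [show r % p ^ a % p = r % p from Nat.mod_mod_of_dvd _ (dvd_pow_self p (by omega))]
  obtain ⟨S', hSw, hSF⟩ := exists_system (m := a) (n := a' - a) hdet ha1 hnorm
    (w := w') (fun x => by simp only [hw']; exact mul_nonneg (S.w_nonneg x) (by positivity))
    hinv (G := fun j => S.piece a' (r % p ^ a + p ^ a * j)) fun j hj => by
      rw [Nat.add_sub_cancel' haa]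
      convert hmap a' _ (S.piece_mem ha' (r % p ^ a + p ^ a * j)) using 3
      rw [hc₀]; push_cast; ring
  have hpiece : S'.piece 0 0 = S.piece a r := by
    funext x
    rw [S.piece_split hp0 haa r x]
    simp only [DecSystem.piece, cls_zero, hSF]
  have hbound := hlin X S'
  rw [hpiece, hSw] at hbound
  have hM := S.mass_nonneg b r'
  have hsum : S'.mass 0 0 ≤ (K * S.mass b r' ^ q) ^ ((tri l : ℝ)⁻¹) * S.mass a r := by
    rw [S.mass_split hp0 haa r, mul_sum, DecSystem.mass, cls_zero]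
    refine sum_le_sum fun j _ => ?_
    simp only [DecSystem.normSq, hSF, hSw, hw']
    have hj := h X S (r % p ^ a + p ^ a * j) r' (by rwa [rep_mod ha1])
    rw [← hq] at hj
    refine (Real.rpow_le_rpow (sum_nonneg fun x _ => mul_nonneg
      (mul_nonneg (S.w_nonneg x) (by positivity)) (by positivity))
      ((le_of_eq (sum_congr rfl fun x _ => by ring)).trans hj) (by positivity)).trans_eq ?_
    rw [mul_left_comm, mul_comm, Real.mul_rpow (by positivity)
      (pow_nonneg (S.mass_nonneg _ _) _),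
      Real.pow_rpow_inv_natCast (S.mass_nonneg _ _) (tri_pos hl1).ne']
  rw [← hq]
  calc ∑ x, S.w x * (‖S.piece a r x‖ ^ (2 * tri l) * ‖S.piece b r' x‖ ^ (2 * q))
      = ∑ x, w' x * ‖S.piece a r x‖ ^ (2 * tri l) :=
        sum_congr rfl fun x _ => by simp only [hw']; ring
    _ ≤ K₁ * S'.mass 0 0 ^ tri l := hbound
    _ ≤ K₁ * ((K * S.mass b r' ^ q) ^ ((tri l : ℝ)⁻¹) * S.mass a r) ^ tri l :=
        mul_le_mul_of_nonneg_left (pow_le_pow_left₀ (S'.mass_nonneg 0 0) hsum _) hK₁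
    _ = K₁ * K * (S.mass a r ^ tri l * S.mass b r' ^ q) := by
        rw [mul_pow, Real.rpow_inv_natCast_pow (mul_nonneg hK (pow_nonneg hM _))
          (tri_pos hl1).ne']
        ring

omit [Fact p.Prime] in
theorem pow_norm_sum_le {ι : Type*} (s : Finset ι) (v : ι → ℂ) (n : ℕ) :
    ‖∑ i ∈ s, v i‖ ^ (n + 1) ≤ (#s : ℝ) ^ n * ∑ i ∈ s, ‖v i‖ ^ (n + 1) :=
  (pow_le_pow_left₀ (norm_nonneg _) (norm_sum_le _ _) _).trans
    (pow_sum_le_card_mul_sum_pow (fun _ _ => norm_nonneg _) n)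

/-- Finer pieces bound coarser ones, at a cost in powers of `p`. -/
theorem bil_lift {a a' b b' : ℕ} {K : ℝ} (hl1 : 1 ≤ l) (hl : l < k) (ha1 : 1 ≤ a) (hb1 : 1 ≤ b)
    (haa : a ≤ a') (hbb : b ≤ b') (hK : 0 ≤ K) (h : Bil p k N l a' b' K) :
    Bil p k N l a b (((p : ℝ) ^ a' * (p : ℝ) ^ b') ^ (2 * tri k + 1) * K) := by
  intro X _ _ S r r' hne
  have hp : 1 < p := (Fact.out : p.Prime).one_lt
  have hp0 : 0 < p := by omega
  have hp1 : (1 : ℝ) ≤ p := by exact_mod_cast hp.le
  have hT := tri_pos hl1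
  have hlt : tri l < tri k := by
    have := tri_mono (show l + 1 ≤ k by omega)
    rw [tri_succ] at this
    omega
  obtain ⟨m, hm⟩ : ∃ m, 2 * tri l = m + 1 := ⟨2 * tri l - 1, by omega⟩
  obtain ⟨m', hm'⟩ : ∃ m', 2 * (tri k - tri l) = m' + 1 := ⟨2 * (tri k - tri l) - 1, by omega⟩
  have hpt : ∀ x, ‖S.piece a r x‖ ^ (2 * tri l) * ‖S.piece b r' x‖ ^ (2 * (tri k - tri l)) ≤
      ((p : ℝ) ^ a' * (p : ℝ) ^ b') ^ (2 * tri k) *
        ∑ i ∈ range (p ^ (a' - a)), ∑ j ∈ range (p ^ (b' - b)),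
          ‖S.piece a' (r % p ^ a + p ^ a * i) x‖ ^ (2 * tri l) *
            ‖S.piece b' (r' % p ^ b + p ^ b * j) x‖ ^ (2 * (tri k - tri l)) := fun x => by
    rw [S.piece_split hp0 haa r x, S.piece_split hp0 hbb r' x, ← sum_mul_sum, hm, hm']
    refine (mul_le_mul (pow_norm_sum_le _ _ m) (pow_norm_sum_le _ _ m') (by positivity)
      (by positivity)).trans ?_
    rw [mul_mul_mul_comm, card_range, card_range]
    refine mul_le_mul_of_nonneg_right ?_ (by positivity)
    push_cast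
    rw [mul_pow, ← pow_mul, ← pow_mul, ← pow_mul, ← pow_mul]
    exact mul_le_mul (pow_le_pow_right₀ hp1 (Nat.mul_le_mul (Nat.sub_le _ _) (by omega)))
      (pow_le_pow_right₀ hp1 (Nat.mul_le_mul (Nat.sub_le _ _) (by omega))) (by positivity)
      (by positivity)
  calc ∑ x, S.w x * (‖S.piece a r x‖ ^ (2 * tri l) * ‖S.piece b r' x‖ ^ (2 * (tri k - tri l)))
      ≤ ∑ x, S.w x * (((p : ℝ) ^ a' * (p : ℝ) ^ b') ^ (2 * tri k) *
        ∑ i ∈ range (p ^ (a' - a)), ∑ j ∈ range (p ^ (b' - b)),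
          ‖S.piece a' (r % p ^ a + p ^ a * i) x‖ ^ (2 * tri l) *
            ‖S.piece b' (r' % p ^ b + p ^ b * j) x‖ ^ (2 * (tri k - tri l))) :=
        sum_le_sum fun x _ => mul_le_mul_of_nonneg_left (hpt x) (S.w_nonneg x)
    _ = ((p : ℝ) ^ a' * (p : ℝ) ^ b') ^ (2 * tri k) *
        ∑ i ∈ range (p ^ (a' - a)), ∑ j ∈ range (p ^ (b' - b)), ∑ x, S.w x *
          (‖S.piece a' (r % p ^ a + p ^ a * i) x‖ ^ (2 * tri l) *
            ‖S.piece b' (r' % p ^ b + p ^ b * j) x‖ ^ (2 * (tri k - tri l))) := by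
        simp only [mul_sum]
        rw [sum_comm]
        refine sum_congr rfl fun i _ => ?_
        rw [sum_comm]
        exact sum_congr rfl fun j _ => sum_congr rfl fun x _ => by ring
    _ ≤ ((p : ℝ) ^ a' * (p : ℝ) ^ b') ^ (2 * tri k) *
        ∑ _i ∈ range (p ^ (a' - a)), ∑ _j ∈ range (p ^ (b' - b)),
          K * (S.mass a r ^ tri l * S.mass b r' ^ (tri k - tri l)) := by
        refine mul_le_mul_of_nonneg_left (sum_le_sum fun i hi => sum_le_sum fun j hj => ?_)
          (by positivity)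
        refine (h X S _ _ (by rwa [rep_mod ha1, rep_mod hb1])).trans
          (mul_le_mul_of_nonneg_left (mul_le_mul ?_ ?_ (pow_nonneg (S.mass_nonneg _ _) _)
            (pow_nonneg (S.mass_nonneg _ _) _)) hK) <;>
          refine pow_le_pow_left₀ (S.mass_nonneg _ _) ?_ _
        · rw [S.mass_split hp0 haa r]
          exact single_le_sum (f := fun i => S.mass a' (r % p ^ a + p ^ a * i))
            (fun i _ => S.mass_nonneg _ _) hi
        · rw [S.mass_split hp0 hbb r']
          exact single_le_sum (f := fun i => S.mass b' (r' % p ^ b + p ^ b * i))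
            (fun i _ => S.mass_nonneg _ _) hj
    _ ≤ _ := by
        simp only [sum_const, card_range, nsmul_eq_mul, ← mul_assoc]
        refine mul_le_mul_of_nonneg_right (mul_le_mul_of_nonneg_right (mul_le_mul_of_nonneg_right
          ?_ hK) (pow_nonneg (S.mass_nonneg _ _) _)) (pow_nonneg (S.mass_nonneg _ _) _)
        rw [pow_succ, mul_assoc]
        push_cast
        exact mul_le_mul_of_nonneg_left (mul_le_mul (pow_le_pow_right₀ hp1 (Nat.sub_le _ _))
          (pow_le_pow_right₀ hp1 (Nat.sub_le _ _)) (by positivity) (by positivity)) (by positivity)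

omit [Fact p.Prime] in
/-- The symmetric bound follows from any of the others. -/
theorem bil_sym {a : ℕ} {K : ℝ} (hl : l ≤ k) (hK : 0 ≤ K) (h : Bil p k N l a a K)
    (S : DecSystem p k N X) {r r' : ℕ} (hne : r % p ≠ r' % p) :
    ∑ x, S.w x * (‖S.piece a r x‖ * ‖S.piece a r' x‖) ^ tri k ≤ K * S.mass 0 0 ^ tri k := by
  have hle : tri l ≤ tri k := tri_mono hl
  have hm := S.mass_nonneg 0 0
  refine le_of_pow_le two_ne_zero (mul_nonneg hK (pow_nonneg hm _)) ?_
  refine (holder_pow (univ : Finset X) (i := 1)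
    (Y := fun x => ‖S.piece a r x‖ ^ (2 * tri l) * ‖S.piece a r' x‖ ^ (2 * (tri k - tri l)))
    (Z := fun x => ‖S.piece a r' x‖ ^ (2 * tri l) * ‖S.piece a r x‖ ^ (2 * (tri k - tri l)))
    one_le_two two_pos S.w_nonneg (fun x => by positivity) (fun x => by positivity)
    (fun x => by positivity) fun x => ?_).trans ?_
  · obtain ⟨q, hq⟩ := Nat.exists_eq_add_of_le hle
    rw [hq, Nat.add_sub_cancel_left]
    ring
  · have hb : ∀ r r' : ℕ, r % p ≠ r' % p →
        ∑ x, S.w x * (‖S.piece a r x‖ ^ (2 * tri l) * ‖S.piece a r' x‖ ^ (2 * (tri k - tri l))) ≤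
          K * S.mass 0 0 ^ tri k := fun r r' hne => by
      refine (h X S r r' hne).trans (mul_le_mul_of_nonneg_left ?_ hK)
      refine (mul_le_mul (pow_le_pow_left₀ (S.mass_nonneg _ _) (S.mass_le_total a r) _)
        (pow_le_pow_left₀ (S.mass_nonneg _ _) (S.mass_le_total a r') _)
        (pow_nonneg (S.mass_nonneg _ _) _) (pow_nonneg hm _)).trans_eq ?_
      rw [← pow_add, Nat.add_sub_cancel' hle]
    rw [pow_one, show 2 - 1 = 1 from rfl, pow_one, sq]
    exact mul_le_mul (hb r r' hne) (hb r' r hne.symm)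
      (sum_nonneg fun x _ => mul_nonneg (S.w_nonneg x) (by positivity))
      (mul_nonneg hK (pow_nonneg hm _))

omit [Fact p.Prime] in
/-- Either one term dominates or two terms are large. -/
theorem pow_sum_le_diag_add {ι : Type*} [DecidableEq ι] (s : Finset ι) {v : ι → ℝ}
    (hv : ∀ i, 0 ≤ v i) {R : ℕ} (hR : 0 < R) :
    (∑ i ∈ s, v i) ^ (2 * R) ≤ 2 ^ (2 * R) * ∑ i ∈ s, v i ^ (2 * R) +
      (2 * #s : ℝ) ^ (2 * R) *
        ∑ i ∈ s, ∑ j ∈ s, if i = j then 0 else (v i * v j) ^ R := by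
  have hpair : ∀ i j : ι, 0 ≤ if i = j then 0 else (v i * v j) ^ R := fun i j => by
    split
    · exact le_rfl
    · exact pow_nonneg (mul_nonneg (hv i) (hv j)) _
  rcases s.eq_empty_or_nonempty with rfl | hs
  · simp [zero_pow (by omega : 2 * R ≠ 0)]
  obtain ⟨i, hi, hmax⟩ := exists_max_image s v hs
  have hsplit : v i + ∑ j ∈ s.erase i, v j = ∑ j ∈ s, v j := add_sum_erase s v hi
  by_cases h : ∑ j ∈ s.erase i, v j ≤ v i
  · refine le_add_of_le_of_nonneg ?_ (mul_nonneg (by positivity)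
      (sum_nonneg fun a _ => sum_nonneg fun b _ => hpair a b))
    refine (pow_le_pow_left₀ (sum_nonneg fun j _ => hv j)
      (show ∑ j ∈ s, v j ≤ 2 * v i by linarith) _).trans ?_
    rw [mul_pow]
    exact mul_le_mul_of_nonneg_left
      (single_le_sum (f := fun j => v j ^ (2 * R)) (fun j _ => pow_nonneg (hv j) _) hi)
      (by positivity)
  · have hne : (s.erase i).Nonempty := by
      by_contra hcon
      rw [not_nonempty_iff_eq_empty] at hcon
      rw [hcon, sum_empty] at h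
      exact h (hv i)
    obtain ⟨j, hj, hjmax⟩ := exists_max_image (s.erase i) v hne
    obtain ⟨hji, hjs⟩ := mem_erase.1 hj
    have h1 : ∑ j' ∈ s.erase i, v j' ≤ #s * v j := by
      refine (sum_le_card_nsmul _ _ _ hjmax).trans ?_
      rw [nsmul_eq_mul]
      exact mul_le_mul_of_nonneg_right (Nat.cast_le.2 (card_le_card (erase_subset _ _))) (hv j)
    refine le_add_of_nonneg_of_le
      (mul_nonneg (by positivity) (sum_nonneg fun a _ => pow_nonneg (hv a) _)) ?_
    refine (pow_le_pow_left₀ (sum_nonneg fun j' _ => hv j')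
      (show ∑ j' ∈ s, v j' ≤ 2 * #s * v j by linarith [not_le.1 h]) _).trans ?_
    rw [mul_pow _ (v j)]
    refine mul_le_mul_of_nonneg_left ?_ (by positivity)
    refine le_trans ?_ ((single_le_sum (f := fun b => if i = b then 0 else (v i * v b) ^ R)
      (fun b _ => hpair i b) hjs).trans (single_le_sum
        (f := fun a => ∑ b ∈ s, if a = b then 0 else (v a * v b) ^ R)
        (fun a _ => sum_nonneg fun b _ => hpair a b) hi))
    rw [if_neg fun e => hji e.symm, pow_mul]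
    exact pow_le_pow_left₀ (by positivity)
      (by rw [sq]; exact mul_le_mul_of_nonneg_right (hmax j hjs) (hv j)) _

/-- The recursion from bilinear to linear decoupling. -/
theorem lin_step {L : ℕ} {K₀ K₁ : ℝ} (hk1 : 1 ≤ k) (hk : k < p) (hL : L ≤ N) (hK₀ : 0 ≤ K₀)
    (hK₁ : 0 ≤ K₁) (h0 : Lin p k (N - L) K₀) (h1 : ∀ i < L, SymBil p k (N - i) L K₁) :
    Lin p k N (2 ^ (2 * tri k) * K₀ +
      (2 * (p : ℝ) ^ L) ^ (2 * tri k) * ((p : ℝ) ^ L * (p : ℝ) ^ L) * K₁) := by
  intro X _ _ S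
  have hp0 : 0 < p := (Fact.out : p.Prime).pos
  have hR := tri_pos hk1
  have hM := S.mass_nonneg 0 0
  have hsplit : ∀ x, S.piece 0 0 x = ∑ i ∈ range (p ^ L), S.piece L i x := fun x => by
    rw [S.piece_split hp0 (Nat.zero_le L) 0 x, Nat.sub_zero]
    simp
  have hpt : ∀ x, S.w x * ‖S.piece 0 0 x‖ ^ (2 * tri k) ≤
      2 ^ (2 * tri k) * ∑ i ∈ range (p ^ L), S.w x * ‖S.piece L i x‖ ^ (2 * tri k) +
      (2 * (p : ℝ) ^ L) ^ (2 * tri k) * ∑ i ∈ range (p ^ L), ∑ j ∈ range (p ^ L),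
        if i = j then 0 else S.w x * (‖S.piece L i x‖ * ‖S.piece L j x‖) ^ tri k := fun x => by
    refine (mul_le_mul_of_nonneg_left ((pow_le_pow_left₀ (norm_nonneg _)
      (by rw [hsplit x]; exact norm_sum_le _ _) _).trans
        (pow_sum_le_diag_add (range (p ^ L)) (fun i => norm_nonneg (S.piece L i x)) hR))
      (S.w_nonneg x)).trans_eq ?_
    rw [card_range, mul_add, mul_left_comm, mul_left_comm (S.w x), mul_sum, mul_sum]
    push_cast
    simp only [mul_sum, mul_ite, mul_zero]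
  have hdiag : ∑ x, ∑ i ∈ range (p ^ L), S.w x * ‖S.piece L i x‖ ^ (2 * tri k) ≤
      K₀ * S.mass 0 0 ^ tri k := by
    rw [sum_comm]
    refine (sum_le_sum fun i _ => h0.piece_le hk hL S i).trans ?_
    rw [← mul_sum]
    refine mul_le_mul_of_nonneg_left ?_ hK₀
    obtain ⟨R, hR'⟩ : ∃ R, tri k = R + 1 := ⟨tri k - 1, by omega⟩
    simp only [hR', pow_succ]
    refine (sum_le_sum fun i _ => mul_le_mul_of_nonneg_right
      (pow_le_pow_left₀ (S.mass_nonneg _ _) (S.mass_le_total L i) R) (S.mass_nonneg _ _)).trans ?_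
    rw [← mul_sum]
    refine mul_le_mul_of_nonneg_left (le_of_eq ?_) (pow_nonneg hM _)
    rw [S.mass_split hp0 (Nat.zero_le L) 0, Nat.sub_zero]
    simp
  have hoff : ∑ x, ∑ i ∈ range (p ^ L), ∑ j ∈ range (p ^ L),
      (if i = j then 0 else S.w x * (‖S.piece L i x‖ * ‖S.piece L j x‖) ^ tri k) ≤
        (p : ℝ) ^ L * (p : ℝ) ^ L * (K₁ * S.mass 0 0 ^ tri k) := by
    rw [sum_comm]
    refine (sum_le_card_nsmul _ _ ((p : ℝ) ^ L * (K₁ * S.mass 0 0 ^ tri k)) fun i hi => ?_).trans_eq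
      (by simp [mul_assoc])
    rw [sum_comm]
    refine (sum_le_card_nsmul _ _ (K₁ * S.mass 0 0 ^ tri k) fun j hj => ?_).trans_eq (by simp)
    rw [mem_range] at hi hj
    by_cases e : i = j
    · simp only [e, if_true, sum_const_zero]; positivity
    simp only [e, if_false]
    have hex : ∃ m, i % p ^ m ≠ j % p ^ m :=
      ⟨L, by rwa [Nat.mod_eq_of_lt hi, Nat.mod_eq_of_lt hj]⟩
    obtain ⟨m, hm⟩ : ∃ m, Nat.find hex = m + 1 := by
      refine ⟨Nat.find hex - 1, ?_⟩
      have : Nat.find hex ≠ 0 := fun h => by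
        have := Nat.find_spec hex
        rw [h] at this
        simp [Nat.mod_one] at this
      omega
    have hmL : m < L := by
      have := Nat.find_min' hex (show i % p ^ L ≠ j % p ^ L by
        rwa [Nat.mod_eq_of_lt hi, Nat.mod_eq_of_lt hj])
      omega
    have hspec : i % p ^ (m + 1) ≠ j % p ^ (m + 1) := hm ▸ Nat.find_spec hex
    have hsame : i % p ^ m = j % p ^ m :=
      not_not.1 (Nat.find_min hex (show m < Nat.find hex by omega))
    rcases Nat.eq_zero_or_pos m with rfl | hm0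
    · refine h1 0 hmL X S L i j (by omega) le_rfl hL ?_
      simpa using hspec
    obtain ⟨S', hw, h'⟩ := exists_child S hk hm0 (by omega : m ≤ N) i
    have hne : i / p ^ m % p ≠ j / p ^ m % p := fun h => hspec (by
      rw [Nat.pow_succ, Nat.mod_mul, Nat.mod_mul, hsame, h])
    have hb := h1 m hmL X S' (L - m) (i / p ^ m) (j / p ^ m) (by omega) (by omega) (by omega) hne
    rw [hw, (h' _ _ (by omega)).1, (h' _ _ (by omega)).1, (h' 0 0 (by omega)).2,
      Nat.add_sub_cancel' hmL.le, Nat.mod_add_div] at hb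
    nth_rw 1 [hsame] at hb
    rw [Nat.mod_add_div] at hb
    exact hb.trans (mul_le_mul_of_nonneg_left
      (pow_le_pow_left₀ (S.mass_nonneg _ _) (S.mass_le_total _ _) _) hK₁)
  refine (sum_le_sum fun x _ => hpt x).trans ?_
  rw [sum_add_distrib, ← mul_sum, ← mul_sum, add_mul]
  refine add_le_add ?_ ?_
  · rw [mul_assoc]
    exact mul_le_mul_of_nonneg_left hdiag (by positivity)
  · rw [mul_assoc, mul_assoc]
    exact mul_le_mul_of_nonneg_left hoff (by positivity)

end FA.VMC
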