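import Mathlib.Analysis.SpecialFunctions.Complex.Circle
import Mathlib.LinearAlgebra.Span.Basic
import Mathlib.Data.Complex.BigOperators

/-!
# Functions with prescribed frequencies under translations

A homomorphism `ι : ℤ ^ k → X` acts by translations. `wave ι lam q S` is spanned by the functions
which the translation by `ι y` multiplies by `lam y * e (ξ • y / q)` for a frequency `ξ ∈ S`. When
the frequencies are congruent on a subgroup, translations by it do not change absolute values.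
-/

set_option autoImplicit false

noncomputable section

namespace FA.VMC

open Finset Complex

/-- `e (n / q)`. -/
def ec (q : ℕ) (n : ℤ) : ℂ := exp (2 * Real.pi * I * n / q)

theorem ec_zero (q : ℕ) : ec q 0 = 1 := by simp [ec]

theorem ec_add (q : ℕ) (m n : ℤ) : ec q (m + n) = ec q m * ec q n := by
  rw [ec, ec, ec, ← exp_add]; push_cast; ring_nf

theorem norm_ec (q : ℕ) (n : ℤ) : ‖ec q n‖ = 1 := by
  rw [ec, show 2 * (Real.pi : ℂ) * I * n / q = ((2 * Real.pi * n / q : ℝ) : ℂ) * I by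
    push_cast; ring, norm_exp_ofReal_mul_I]

theorem ec_ne_zero (q : ℕ) (n : ℤ) : ec q n ≠ 0 := exp_ne_zero _

theorem ec_eq_one_iff {q : ℕ} (hq : q ≠ 0) (n : ℤ) : ec q n = 1 ↔ (q : ℤ) ∣ n := by
  have h2 : (q : ℂ) ≠ 0 := Nat.cast_ne_zero.2 hq
  rw [ec, exp_eq_one_iff]
  constructor
  · rintro ⟨m, hm⟩
    refine ⟨m, ?_⟩
    have h : (n : ℂ) = (q : ℂ) * m := by
      have h3 : (2 * (Real.pi : ℂ) * I) ≠ 0 := two_pi_I_ne_zero
      field_simp at hm
      linear_combination hm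
    exact_mod_cast h
  · rintro ⟨m, rfl⟩
    exact ⟨m, by push_cast; field_simp⟩

theorem ec_mul_eq {q : ℕ} (r : ℕ) (hr : r ≠ 0) (n : ℤ) : ec (r * q) (r * n) = ec q n := by
  rcases eq_or_ne q 0 with rfl | hq
  · simp [ec]
  rw [ec, ec]
  congr 1
  push_cast
  field_simp

theorem ec_congr {q : ℕ} (hq : q ≠ 0) {m n : ℤ} (h : (q : ℤ) ∣ m - n) : ec q m = ec q n := by
  rw [show m = (m - n) + n by ring, ec_add, (ec_eq_one_iff hq _).2 h, one_mul]

theorem conj_ec (q : ℕ) (n : ℤ) : starRingEnd ℂ (ec q n) = ec q (-n) := by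
  rw [ec, ec, ← exp_conj]
  congr 1
  simp only [map_div₀, map_mul, conj_I, conj_ofReal, map_intCast, map_natCast, map_ofNat]
  push_cast; ring

variable {X : Type*} [AddCommGroup X] {k : ℕ}

/-- Functions with frequencies in `S`. -/
def wave (ι : (Fin k → ℤ) →+ X) (lam : (Fin k → ℤ) → ℂ) (q : ℕ) (S : Set (Fin k → ℤ)) :
    Submodule ℂ (X → ℂ) :=
  Submodule.span ℂ
    {φ | ∃ ξ ∈ S, ∀ x y, φ (x + ι y) = lam y * ec q (∑ j, ξ j * y j) * φ x}

variable {ι : (Fin k → ℤ) →+ X} {lam : (Fin k → ℤ) → ℂ} {q : ℕ} {S : Set (Fin k → ℤ)}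

theorem mem_wave {φ : X → ℂ} {ξ : Fin k → ℤ} (hξ : ξ ∈ S)
    (h : ∀ x y, φ (x + ι y) = lam y * ec q (∑ j, ξ j * y j) * φ x) : φ ∈ wave ι lam q S :=
  Submodule.subset_span ⟨ξ, hξ, h⟩

theorem wave_mono {S' : Set (Fin k → ℤ)} (h : S ⊆ S') : wave ι lam q S ≤ wave ι lam q S' :=
  Submodule.span_mono fun _ ⟨ξ, hξ, hφ⟩ => ⟨ξ, h hξ, hφ⟩

/-- Translations by another group, factored through `ι`. -/
theorem wave_comp {l q' : ℕ} {g : (Fin l → ℤ) →+ (Fin k → ℤ)} {lam' : (Fin l → ℤ) → ℂ}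
    {S' : Set (Fin l → ℤ)}
    (h : ∀ ξ ∈ S, ∃ ξ' ∈ S', ∀ y,
      lam (g y) * ec q (∑ j, ξ j * g y j) = lam' y * ec q' (∑ j, ξ' j * y j)) :
    wave ι lam q S ≤ wave (ι.comp g) lam' q' S' :=
  Submodule.span_le.2 fun φ ⟨ξ, hξ, hφ⟩ => by
    obtain ⟨ξ', hξ', e⟩ := h ξ hξ
    exact mem_wave hξ' fun x y => by rw [AddMonoidHom.comp_apply, hφ, e]

/-- Translations along which all frequencies agree act by scalars. -/
theorem wave_translate {F : X → ℂ} (hF : F ∈ wave ι lam q S) {y : Fin k → ℤ} {c : ℂ}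
    (h : ∀ ξ ∈ S, ec q (∑ j, ξ j * y j) = c) (x : X) : F (x + ι y) = lam y * c * F x := by
  refine Submodule.span_induction (p := fun G _ => G (x + ι y) = lam y * c * G x) ?_ ?_ ?_ ?_ hF
  · rintro φ ⟨ξ, hξ, hφ⟩
    rw [hφ, h ξ hξ]
  · simp
  · intro G G' _ _ e e'
    simp only [Pi.add_apply, e, e', mul_add]
  · intro a G _ e
    simp only [Pi.smul_apply, smul_eq_mul, e]
    ring

theorem norm_wave_translate {F : X → ℂ} (hF : F ∈ wave ι lam q S) (hlam : ∀ y, ‖lam y‖ = 1)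
    {y : Fin k → ℤ} (h : ∀ ξ ∈ S, ∀ ξ' ∈ S,
      ec q (∑ j, ξ j * y j) = ec q (∑ j, ξ' j * y j)) (x : X) : ‖F (x + ι y)‖ = ‖F x‖ := by
  rcases S.eq_empty_or_nonempty with rfl | ⟨ξ₀, hξ₀⟩
  · have : F = 0 := by simpa [wave] using hF
    simp [this]
  rw [wave_translate hF (c := ec q (∑ j, ξ₀ j * y j)) fun ξ hξ => h ξ hξ ξ₀ hξ₀, norm_mul, norm_mul,
    hlam, norm_ec, one_mul, one_mul]

/-- Two classes of frequencies separated by a translation are orthogonal for invariant weights. -/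
theorem wave_orthogonal [Fintype X] {S' : Set (Fin k → ℤ)} {F G : X → ℂ}
    (hF : F ∈ wave ι lam q S) (hG : G ∈ wave ι lam q S') (hlam : ∀ y, ‖lam y‖ = 1) {w : X → ℝ}
    (hw : ∀ x y, w (x + ι y) = w x) {y : Fin k → ℤ}
    (h : ∀ ξ ∈ S, ∀ ξ' ∈ S', ec q (∑ j, ξ j * y j) ≠ ec q (∑ j, ξ' j * y j)) :
    ∑ x, (w x : ℂ) * F x * starRingEnd ℂ (G x) = 0 := by
  refine Submodule.span_induction
    (p := fun A _ => ∑ x, (w x : ℂ) * A x * starRingEnd ℂ (G x) = 0) ?_ ?_ ?_ ?_ hF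
  · rintro φ ⟨ξ, hξ, hφ⟩
    refine Submodule.span_induction
      (p := fun B _ => ∑ x, (w x : ℂ) * φ x * starRingEnd ℂ (B x) = 0) ?_ ?_ ?_ ?_ hG
    · rintro ψ ⟨ξ', hξ', hψ⟩
      have h1 : ∑ x, (w (x + ι y) : ℂ) * φ (x + ι y) * starRingEnd ℂ (ψ (x + ι y)) =
          ∑ x, (w x : ℂ) * φ x * starRingEnd ℂ (ψ x) :=
        Equiv.sum_comp (Equiv.addRight (ι y)) fun x => (w x : ℂ) * φ x * starRingEnd ℂ (ψ x)
      have hl : lam y * starRingEnd ℂ (lam y) = 1 := by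
        rw [mul_conj']; simp [hlam y]
      have hcs : ∑ x, (w (x + ι y) : ℂ) * φ (x + ι y) * starRingEnd ℂ (ψ (x + ι y)) =
          (ec q (∑ j, ξ j * y j) * starRingEnd ℂ (ec q (∑ j, ξ' j * y j))) *
            ∑ x, (w x : ℂ) * φ x * starRingEnd ℂ (ψ x) := by
        rw [mul_sum]
        refine sum_congr rfl fun x _ => ?_
        rw [hw, hφ, hψ, map_mul, map_mul]
        linear_combination (ec q (∑ j, ξ j * y j) * starRingEnd ℂ (ec q (∑ j, ξ' j * y j)) *
          ((w x : ℂ) * φ x * starRingEnd ℂ (ψ x))) * hl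
      rw [h1] at hcs
      refine by_contra fun hne => h ξ hξ ξ' hξ' ?_
      have h3 : ec q (∑ j, ξ j * y j) * starRingEnd ℂ (ec q (∑ j, ξ' j * y j)) = 1 :=
        mul_right_cancel₀ hne (by rw [one_mul]; exact hcs.symm)
      have h4 : ec q (∑ j, ξ' j * y j) * starRingEnd ℂ (ec q (∑ j, ξ' j * y j)) = 1 := by
        rw [mul_conj']; simp [norm_ec]
      linear_combination (ec q (∑ j, ξ' j * y j)) * h3 - ec q (∑ j, ξ j * y j) * h4
    · simp
    · intro A B _ _ e e'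
      simp only [Pi.add_apply, map_add, mul_add, sum_add_distrib, e, e', add_zero]
    · intro a A _ e
      simp only [Pi.smul_apply, smul_eq_mul, map_mul]
      rw [← mul_zero (starRingEnd ℂ a), ← e, mul_sum]
      exact sum_congr rfl fun x _ => by ring
  · simp
  · intro A B _ _ e e'
    simp only [Pi.add_apply, mul_add, add_mul, sum_add_distrib, e, e', add_zero]
  · intro a A _ e
    simp only [Pi.smul_apply, smul_eq_mul]
    rw [← mul_zero a, ← e, mul_sum]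
    exact sum_congr rfl fun x _ => by ring

end FA.VMC
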