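import Fermat.Agent.VinogradovMainConjecture.Curves
import Fermat.Agent.VinogradovMainConjecture.Waves
import Mathlib.Analysis.MeanInequalities

/-!
# Decoupling constants for curves over `p`-adic intervals

A system consists of an invariant weight and of one function for each residue class modulo `p ^ N`,
with frequencies at the points of a good curve in that class. `Lin` bounds the sum of all of them,
`Bil` a product of two pieces in distinct classes modulo `p`.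
-/

set_option autoImplicit false

noncomputable section

namespace FA.VMC

open Finset

variable {p k l : ℕ}

/-- The triangular numbers: half the critical exponent. -/
def tri (l : ℕ) : ℕ := ∑ i ∈ range l, (i + 1)

theorem tri_succ (l : ℕ) : tri (l + 1) = tri l + (l + 1) := sum_range_succ _ _

theorem two_mul_tri (l : ℕ) : 2 * tri l = l * (l + 1) := by
  induction l with
  | zero => rfl
  | succ l ih => rw [tri_succ, mul_add, ih]; ring

theorem tri_pos (hl : 1 ≤ l) : 0 < tri l := by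
  have := two_mul_tri l
  have : 0 < l * (l + 1) := Nat.mul_pos hl (Nat.succ_pos l)
  omega

theorem tri_mono {a b : ℕ} (h : a ≤ b) : tri a ≤ tri b :=
  sum_le_sum_of_subset (range_mono h)

/-- The points of a curve in a residue class. -/
def pts (p : ℕ) (γ : Fin k → Polynomial ℤ) (L : ℕ) (c : ℤ) : Set (Fin k → ℤ) :=
  {ξ | ∃ t : ℤ, (p : ℤ) ^ L ∣ t - c ∧ ξ = curve γ t}

theorem pts_mono {γ : Fin k → Polynomial ℤ} {L L' : ℕ} (h : L' ≤ L) {c c' : ℤ}
    (hc : (p : ℤ) ^ L' ∣ c - c') : pts p γ L c ⊆ pts p γ L' c' :=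
  fun _ ⟨t, ht, e⟩ => ⟨t, by
    have := dvd_add ((pow_dvd_pow _ h).trans ht) hc
    rwa [sub_add_sub_cancel] at this, e⟩

/-- The data to which decoupling applies. -/
structure DecSystem (p k N : ℕ) (X : Type) [Fintype X] [AddCommGroup X] where
  /-- The translations. -/
  ι : (Fin k → ℤ) →+ X
  /-- The common phase. -/
  lam : (Fin k → ℤ) → ℂ
  norm_lam : ∀ y, ‖lam y‖ = 1
  /-- The weight. -/
  w : X → ℝ
  w_nonneg : ∀ x, 0 ≤ w x
  w_inv : ∀ x y, w (x + ι y) = w x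
  /-- The curve. -/
  γ : Fin k → Polynomial ℤ
  good : Good p γ
  /-- The functions. -/
  F : ℕ → X → ℂ
  mem : ∀ c < p ^ N, F c ∈ wave ι lam (p ^ (k * N)) (pts p γ N c)

/-- The residue classes modulo `p ^ N` in a class modulo `p ^ a`. -/
def cls (p N a r : ℕ) : Finset ℕ := (range (p ^ N)).filter fun c => c % p ^ a = r % p ^ a

theorem cls_zero (N r : ℕ) : cls p N 0 r = range (p ^ N) := by
  simp [cls, Nat.mod_one]

theorem cls_top {N c : ℕ} (hc : c < p ^ N) : cls p N N c = {c} := by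
  ext d
  simp only [cls, mem_filter, mem_range, mem_singleton]
  refine ⟨fun ⟨h1, h2⟩ => ?_, fun h => ⟨h ▸ hc, h ▸ rfl⟩⟩
  rwa [Nat.mod_eq_of_lt h1, Nat.mod_eq_of_lt hc] at h2

theorem rep_lt {N a r j : ℕ} (hp : 0 < p) (ha : a ≤ N) (hj : j < p ^ (N - a)) :
    r % p ^ a + p ^ a * j < p ^ N := by
  calc r % p ^ a + p ^ a * j < p ^ a + p ^ a * j :=
        Nat.add_lt_add_right (Nat.mod_lt _ (pow_pos hp a)) _
    _ = p ^ a * (j + 1) := by ring
    _ ≤ p ^ a * p ^ (N - a) := Nat.mul_le_mul_left _ hj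
    _ = p ^ N := by rw [← pow_add]; congr 1; omega

/-- A class splits into the finer classes. -/
theorem sum_cls_split {M : Type*} [AddCommMonoid M] {N a a' : ℕ} (hp : 0 < p) (ha : a ≤ a')
    (r : ℕ) (f : ℕ → M) :
    ∑ c ∈ cls p N a r, f c =
      ∑ j ∈ range (p ^ (a' - a)), ∑ c ∈ cls p N a' (r % p ^ a + p ^ a * j), f c := by
  have hrep : ∀ j < p ^ (a' - a),
      (r % p ^ a + p ^ a * j) % p ^ a' = r % p ^ a + p ^ a * j :=
    fun j hj => Nat.mod_eq_of_lt (rep_lt hp ha hj)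
  rw [← sum_fiberwise_of_maps_to (g := fun c => c % p ^ a' / p ^ a)
    (t := range (p ^ (a' - a))) (s := cls p N a r) fun c _ => ?_]
  · refine sum_congr rfl fun j hj => sum_congr ?_ fun _ _ => rfl
    rw [mem_range] at hj
    ext c
    simp only [cls, mem_filter, mem_range, hrep j hj]
    have hmod : c % p ^ a' % p ^ a = c % p ^ a := Nat.mod_mod_of_dvd _ (pow_dvd_pow p ha)
    constructor
    · rintro ⟨⟨h1, h2⟩, h3⟩
      refine ⟨h1, ?_⟩
      rw [← Nat.mod_add_div (c % p ^ a') (p ^ a), hmod, h3, h2]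
    · rintro ⟨h1, h2⟩
      refine ⟨⟨h1, ?_⟩, ?_⟩
      · rw [← hmod, h2, Nat.add_mul_mod_self_left, Nat.mod_mod]
      · rw [h2, Nat.add_mul_div_left _ _ (pow_pos hp a),
          Nat.div_eq_of_lt (Nat.mod_lt _ (pow_pos hp a)), zero_add]
  · rw [mem_range, Nat.div_lt_iff_lt_mul (pow_pos hp a), ← pow_add]
    exact (Nat.mod_lt _ (pow_pos hp a')).trans_le (Nat.pow_le_pow_right hp (by omega))

namespace DecSystem

variable {N : ℕ} {X : Type} [Fintype X] [AddCommGroup X] (S : DecSystem p k N X)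

/-- The sum over a class. -/
def piece (a r : ℕ) (x : X) : ℂ := ∑ c ∈ cls p N a r, S.F c x

/-- The squared critical norm of one function. -/
def normSq (c : ℕ) : ℝ := (∑ x, S.w x * ‖S.F c x‖ ^ (2 * tri k)) ^ ((tri k : ℝ)⁻¹)

/-- The sum of the squared norms over a class. -/
def mass (a r : ℕ) : ℝ := ∑ c ∈ cls p N a r, S.normSq c

theorem normSq_nonneg (c : ℕ) : 0 ≤ S.normSq c :=
  Real.rpow_nonneg (sum_nonneg fun x _ => mul_nonneg (S.w_nonneg x) (by positivity)) _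

theorem mass_nonneg (a r : ℕ) : 0 ≤ S.mass a r := sum_nonneg fun c _ => S.normSq_nonneg c

theorem mass_le_total (a r : ℕ) : S.mass a r ≤ S.mass 0 0 :=
  sum_le_sum_of_subset_of_nonneg (by rw [cls_zero]; exact filter_subset _ _)
    fun c _ _ => S.normSq_nonneg c

theorem piece_split {a a' : ℕ} (hp : 0 < p) (ha : a ≤ a') (r : ℕ) (x : X) :
    S.piece a r x = ∑ j ∈ range (p ^ (a' - a)), S.piece a' (r % p ^ a + p ^ a * j) x :=
  sum_cls_split hp ha r _

theorem mass_split {a a' : ℕ} (hp : 0 < p) (ha : a ≤ a') (r : ℕ) :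
    S.mass a r = ∑ j ∈ range (p ^ (a' - a)), S.mass a' (r % p ^ a + p ^ a * j) :=
  sum_cls_split hp ha r _

theorem piece_mem {a : ℕ} (ha : a ≤ N) (r : ℕ) :
    S.piece a r ∈ wave S.ι S.lam (p ^ (k * N)) (pts p S.γ a r) := by
  rw [show S.piece a r = ∑ c ∈ cls p N a r, S.F c by funext x; simp [piece]]
  refine sum_mem fun c hc => ?_
  simp only [cls, mem_filter, mem_range] at hc
  refine wave_mono (pts_mono ha ?_) (S.mem c hc.1)
  rw [← Nat.cast_pow]
  exact (Nat.modEq_iff_dvd.1 hc.2.symm)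

end DecSystem

/-- Linear decoupling with constant `K`. -/
def Lin (p k N : ℕ) (K : ℝ) : Prop :=
  ∀ (X : Type) [Fintype X] [AddCommGroup X] (S : DecSystem p k N X),
    ∑ x, S.w x * ‖S.piece 0 0 x‖ ^ (2 * tri k) ≤ K * S.mass 0 0 ^ tri k

/-- Bilinear decoupling with constant `K`. -/
def Bil (p k N l a b : ℕ) (K : ℝ) : Prop :=
  ∀ (X : Type) [Fintype X] [AddCommGroup X] (S : DecSystem p k N X) (r r' : ℕ), r % p ≠ r' % p →
    ∑ x, S.w x * (‖S.piece a r x‖ ^ (2 * tri l) * ‖S.piece b r' x‖ ^ (2 * (tri k - tri l))) ≤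
      K * (S.mass a r ^ tri l * S.mass b r' ^ (tri k - tri l))

/-- Hölder's inequality for two functions, with natural exponents. -/
theorem holder_pow {α : Type*} (s : Finset α) {w f Y Z : α → ℝ} {n i : ℕ} (hi : i ≤ n) (hn : 0 < n)
    (hw : ∀ x, 0 ≤ w x) (hf : ∀ x, 0 ≤ f x) (hY : ∀ x, 0 ≤ Y x) (hZ : ∀ x, 0 ≤ Z x)
    (h : ∀ x, f x ^ n = Y x ^ i * Z x ^ (n - i)) :
    (∑ x ∈ s, w x * f x) ^ n ≤
      (∑ x ∈ s, w x * Y x) ^ i * (∑ x ∈ s, w x * Z x) ^ (n - i) := by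
  rcases Nat.eq_zero_or_pos i with rfl | hi0
  · simp only [pow_zero, one_mul, Nat.sub_zero] at h ⊢
    exact le_of_eq (by
      congr 1
      exact sum_congr rfl fun x _ => by rw [pow_left_inj₀ (hf x) (hZ x) hn.ne' |>.1 (h x)])
  rcases eq_or_lt_of_le hi with rfl | hin
  · simp only [Nat.sub_self, pow_zero, mul_one] at h ⊢
    exact le_of_eq (by
      congr 1
      exact sum_congr rfl fun x _ => by rw [pow_left_inj₀ (hf x) (hY x) hn.ne' |>.1 (h x)])
  obtain ⟨u, hu⟩ : ∃ u : ℝ, u = i / n := ⟨_, rfl⟩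
  obtain ⟨v, hv⟩ : ∃ v : ℝ, v = (n - i : ℕ) / n := ⟨_, rfl⟩
  have hn' : (0 : ℝ) < n := Nat.cast_pos.2 hn
  have hu0 : 0 < u := hu ▸ div_pos (Nat.cast_pos.2 hi0) hn'
  have hv0 : 0 < v := hv ▸ div_pos (Nat.cast_pos.2 (Nat.sub_pos_of_lt hin)) hn'
  have huv : u + v = 1 := by
    rw [hu, hv, ← add_div, ← Nat.cast_add, Nat.add_sub_cancel' hi, div_self hn'.ne']
  have hpow : ∀ {z : ℝ}, 0 ≤ z → ∀ (j : ℕ), z ^ ((j : ℝ) / n) = (z ^ j) ^ ((n : ℝ)⁻¹) :=
    fun {z} hz j => by rw [← Real.rpow_natCast z j, ← Real.rpow_mul hz, div_eq_mul_inv]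
  have hfx : ∀ x, w x * f x = (w x * Y x) ^ u * (w x * Z x) ^ v := fun x => by
    rw [Real.mul_rpow (hw x) (hY x), Real.mul_rpow (hw x) (hZ x), mul_mul_mul_comm,
      ← Real.rpow_add' (hw x) (by rw [huv]; norm_num), huv, Real.rpow_one, hu, hv, hpow (hY x),
      hpow (hZ x), ← Real.mul_rpow (pow_nonneg (hY x) _) (pow_nonneg (hZ x) _), ← h x,
      Real.pow_rpow_inv_natCast (hf x) hn.ne']
  have hwY : ∀ x, 0 ≤ w x * Y x := fun x => mul_nonneg (hw x) (hY x)
  have hwZ : ∀ x, 0 ≤ w x * Z x := fun x => mul_nonneg (hw x) (hZ x)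
  have hpq : Real.HolderConjugate u⁻¹ v⁻¹ :=
    Real.HolderConjugate.inv_inv hu0 hv0 huv
  have hmain := Real.inner_le_Lp_mul_Lq_of_nonneg s hpq
    (f := fun x => (w x * Y x) ^ u) (g := fun x => (w x * Z x) ^ v)
    (fun x _ => Real.rpow_nonneg (hwY x) _) fun x _ => Real.rpow_nonneg (hwZ x) _
  simp only [one_div, inv_inv, Real.rpow_rpow_inv (hwY _) hu0.ne',
    Real.rpow_rpow_inv (hwZ _) hv0.ne'] at hmain
  rw [sum_congr rfl fun x _ => hfx x]
  have hY0 : 0 ≤ ∑ x ∈ s, w x * Y x := sum_nonneg fun x _ => hwY x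
  have hZ0 : 0 ≤ ∑ x ∈ s, w x * Z x := sum_nonneg fun x _ => hwZ x
  refine (pow_le_pow_left₀ (sum_nonneg fun x _ => mul_nonneg (Real.rpow_nonneg (hwY x) _)
    (Real.rpow_nonneg (hwZ x) _)) hmain n).trans_eq ?_
  rw [mul_pow, hu, hv, hpow hY0, hpow hZ0, Real.rpow_inv_natCast_pow (pow_nonneg hY0 _) hn.ne',
    Real.rpow_inv_natCast_pow (pow_nonneg hZ0 _) hn.ne']

variable [Fact p.Prime]

/-- Dilation: families on a class are systems of smaller scale. -/
theorem exists_system {m n : ℕ} {η : Fin l → Polynomial ℤ} {c : ℤ}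
    (hdet : ((frame η c).det : ZMod p) ≠ 0) (hm : 1 ≤ m) {X : Type} [Fintype X] [AddCommGroup X]
    {ι : (Fin l → ℤ) →+ X} {lam : (Fin l → ℤ) → ℂ} (hlam : ∀ y, ‖lam y‖ = 1) {w : X → ℝ}
    (hw : ∀ x, 0 ≤ w x) (hinv : ∀ x y, w (x + ι y) = w x) {G : ℕ → X → ℂ}
    (hG : ∀ j < p ^ n, G j ∈
      wave ι lam (p ^ (l * (m + n))) (pts p η (m + n) (c + (p : ℤ) ^ m * j))) :
    ∃ S : DecSystem p l n X, S.w = w ∧ S.F = G := by
  obtain ⟨T, γ, κ, hgood, -, hT⟩ := exists_rescale hdet m (Or.inl hm)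
  let g : (Fin l → ℤ) →+ (Fin l → ℤ) :=
    AddMonoidHom.mk' (fun y r => ∑ j, T j r * ((p : ℤ) ^ ((l - (j.1 + 1)) * m) * y j))
      fun y y' => funext fun r => by
        simp only [Pi.add_apply, mul_add, sum_add_distrib]
  have hp0 : p ≠ 0 := (Fact.out : p.Prime).ne_zero
  refine ⟨⟨ι.comp g,
    fun y => lam (g y) *
      ec (p ^ (l * (m + n))) (∑ j, κ j * ((p : ℤ) ^ ((l - (j.1 + 1)) * m) * y j)),
    fun y => by rw [norm_mul, hlam, norm_ec, one_mul], w, hw, fun x y => hinv x _, γ, hgood, G,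
    fun j hj => ?_⟩, rfl, rfl⟩
  refine wave_comp (lam' := fun y => lam (g y) *
    ec (p ^ (l * (m + n))) (∑ j, κ j * ((p : ℤ) ^ ((l - (j.1 + 1)) * m) * y j))) ?_ (hG j hj)
  rintro ξ ⟨t, ⟨s, hs⟩, rfl⟩
  refine ⟨curve γ (j + (p : ℤ) ^ n * s), ⟨_, ⟨s, by ring⟩, rfl⟩, fun y => ?_⟩
  have ht : t = c + (p : ℤ) ^ m * (j + (p : ℤ) ^ n * s) := by
    rw [pow_add] at hs; linear_combination hs
  have e : ∑ r, curve η t r * g y r =
      ∑ i, κ i * ((p : ℤ) ^ ((l - (i.1 + 1)) * m) * y i) +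
        (p : ℤ) ^ (l * m) * ∑ i, curve γ (j + (p : ℤ) ^ n * s) i * y i := by
    simp only [g, AddMonoidHom.mk'_apply, mul_sum]
    rw [sum_comm, ← sum_add_distrib]
    refine sum_congr rfl fun i _ => ?_
    have h : (p : ℤ) ^ (l * m) =
        (p : ℤ) ^ ((i.1 + 1) * m) * (p : ℤ) ^ ((l - (i.1 + 1)) * m) := by
      rw [← pow_add, ← Nat.add_mul, Nat.add_sub_cancel' (Nat.succ_le_iff.2 i.2)]
    calc ∑ r, curve η t r * (T i r * ((p : ℤ) ^ ((l - (i.1 + 1)) * m) * y i))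
        = (∑ r, T i r * (η r).eval t) * ((p : ℤ) ^ ((l - (i.1 + 1)) * m) * y i) := by
          rw [sum_mul]
          exact sum_congr rfl fun r _ => by rw [curve]; ring
      _ = _ := by rw [ht, hT, h, curve]; ring
  rw [e, ec_add, ← mul_assoc]
  congr 1
  rw [show p ^ (l * (m + n)) = p ^ (l * m) * p ^ (l * n) by rw [← pow_add, mul_add],
    ← Nat.cast_pow, ec_mul_eq _ (pow_ne_zero _ hp0)]

end FA.VMC
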